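import Mathlib

/-!
# S05, T3: the valuation bookkeeping behind the component map

Pure valuation theory for three collinear points of `Y² = X³ + s²X² + a₄X`
(`v a₄ < 1`, `v s = 1`, `v 2 = 1`).  Everything is phrased through the Vieta relations of the
cubic `(X - X₁)(X - X₂)(X - X₃) = X³ + s²X² + a₄X - (ℓX + ν)²`.
-/

set_option autoImplicit false
set_option linter.unusedSectionVars false
set_option linter.unusedVariables false

namespace Fermat.Agent.S05.Vieta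

variable {K : Type*} [Field K] {Γ₀ : Type*} [LinearOrderedCommGroupWithZero Γ₀]

/-! ## Order toolbox in `Γ₀` -/

section toolbox

variable {a b c d : Γ₀}

lemma mul_lt_mul_sw (h1 : a < b) (h2 : c ≤ d) (hc : c ≠ 0) : a * c < b * d :=
  lt_of_lt_of_le (mul_lt_mul_of_pos_right h1 (zero_lt_iff.2 hc)) (mul_le_mul' le_rfl h2)

lemma mul_lt_mul_ws (h1 : a ≤ b) (h2 : c < d) (ha : a ≠ 0) : a * c < b * d := by
  rw [mul_comm a c, mul_comm b d]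
  exact mul_lt_mul_sw h2 h1 ha

lemma mul_lt_mul_ss (h1 : a < b) (h2 : c < d) : a * c < b * d :=
  mul_lt_mul'' h1 h2 zero_le zero_le

lemma mul_lt_right_of_lt_one (h1 : a < 1) (hc : c ≠ 0) : a * c < c := by
  simpa using mul_lt_mul_of_pos_right h1 (zero_lt_iff.2 hc)

lemma mul_lt_left_of_lt_one (h1 : a < 1) (hc : c ≠ 0) : c * a < c := by
  rw [mul_comm]; exact mul_lt_right_of_lt_one h1 hc

lemma mul_le_right_of_le_one (h1 : a ≤ 1) : a * c ≤ c := by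
  simpa using mul_le_mul' h1 (le_refl c)

lemma mul_le_left_of_le_one (h1 : a ≤ 1) : c * a ≤ c := by
  rw [mul_comm]; exact mul_le_right_of_le_one h1

lemma le_mul_right_of_one_le (h1 : 1 ≤ a) : c ≤ a * c := by
  simpa using mul_le_mul' h1 (le_refl c)

lemma le_mul_left_of_one_le (h1 : 1 ≤ a) : c ≤ c * a := by
  rw [mul_comm]; exact le_mul_right_of_one_le h1

lemma sq_lt_self (h1 : a < 1) (ha : a ≠ 0) : a ^ 2 < a := by
  rw [sq]; exact mul_lt_right_of_lt_one h1 ha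

lemma sq_le_self (h1 : a ≤ 1) : a ^ 2 ≤ a := by
  rw [sq]; exact mul_le_right_of_le_one h1

lemma le_of_sq_le_sq (h : a ^ 2 ≤ b ^ 2) : a ≤ b := by
  by_contra hlt
  rw [not_le] at hlt
  have := mul_lt_mul_ss hlt hlt
  rw [← sq, ← sq] at this
  exact absurd h (not_le.2 this)

lemma eq_of_sq_eq_sq (h : a ^ 2 = b ^ 2) : a = b :=
  le_antisymm (le_of_sq_le_sq h.le) (le_of_sq_le_sq h.ge)

lemma lt_of_sq_lt_sq (h : a ^ 2 < b ^ 2) : a < b := by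
  by_contra hle
  rw [not_lt] at hle
  have := mul_le_mul' hle hle
  rw [← sq, ← sq] at this
  exact absurd h (not_lt.2 this)

end toolbox

/-! ## Ultrametric toolbox -/

section ultra

variable (v : Valuation K Γ₀)

lemma v_neg_one : v (-1 : K) = 1 := by
  rw [Valuation.map_neg, map_one]

/-- a strictly dominant term cannot be cancelled -/
lemma ne_zero_of_dom {a b : K} (h : v b < v a) : a + b ≠ 0 := by
  intro h0
  have : v (a + b) = v a := v.map_add_eq_of_lt_left h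
  rw [h0, map_zero] at this
  rw [← this] at h
  exact absurd h (not_lt.2 zero_le)

/-- if `a + b = c` and `b` is strictly smaller than `c`, then `v a = v c` -/
lemma v_eq_of_add_eq {a b c : K} (h : a + b = c) (hb : v b < v c) : v a = v c := by
  have e : a = c - b := by rw [← h]; ring
  rw [e, v.map_sub_eq_of_lt_left hb]

lemma v_add_le {a b : K} {c : Γ₀} (ha : v a ≤ c) (hb : v b ≤ c) : v (a + b) ≤ c :=
  (v.map_add a b).trans (max_le ha hb)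

lemma v_sub_le {a b : K} {c : Γ₀} (ha : v a ≤ c) (hb : v b ≤ c) : v (a - b) ≤ c := by
  rw [sub_eq_add_neg]
  exact v_add_le v ha (by rwa [Valuation.map_neg])

lemma v_add_lt {a b : K} {c : Γ₀} (ha : v a < c) (hb : v b < c) : v (a + b) < c :=
  v.map_add_lt ha hb

lemma v_sub_lt {a b : K} {c : Γ₀} (ha : v a < c) (hb : v b < c) : v (a - b) < c := by
  rw [sub_eq_add_neg]
  exact v_add_lt v ha (by rwa [Valuation.map_neg])

end ultra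


/-! ## Points on the curve and on a line -/

section main

variable (v : Valuation K Γ₀)

/-- standing hypotheses -/
structure Hyp (s a₄ : K) : Prop where
  two : v 2 = 1
  s1 : v s = 1
  a4 : v a₄ < 1
  a40 : a₄ ≠ 0

/-- `(x, y)` lies on the curve `Y² = X³ + s²X² + a₄X` and on the line `Y = ℓX + ν`. -/
structure OnLine (s a₄ ℓ ν x y : K) : Prop where
  curve : y ^ 2 = x ^ 3 + s ^ 2 * x ^ 2 + a₄ * x
  line : y = ℓ * x + ν

variable {v} {s a₄ ℓ ν x y : K}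

lemma Hyp.h_ne (H : Hyp v s a₄) : v a₄ ≠ 0 := (Valuation.ne_zero_iff v).2 H.a40

lemma Hyp.neg (H : Hyp v s a₄) : Hyp v (-s) a₄ :=
  ⟨H.two, by rw [Valuation.map_neg]; exact H.s1, H.a4, H.a40⟩

lemma Hyp.two_s (H : Hyp v s a₄) : v (2 * s) = 1 := by
  rw [map_mul, H.two, H.s1, one_mul]

lemma OnLine.neg_s (h : OnLine s a₄ ℓ ν x y) : OnLine (-s) a₄ ℓ ν x y :=
  ⟨by rw [h.curve]; ring, h.line⟩

/-- on the curve, `v x < 1` forces `v y < 1` -/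
lemma v_y_lt_one (H : Hyp v s a₄) (hc : y ^ 2 = x ^ 3 + s ^ 2 * x ^ 2 + a₄ * x)
    (hx : v x < 1) : v y < 1 := by
  have e : y ^ 2 = x * (x ^ 2 + s ^ 2 * x + a₄) := by rw [hc]; ring
  have h1 : v (x ^ 2 + s ^ 2 * x + a₄) ≤ 1 := by
    refine v_add_le v (v_add_le v ?_ ?_) H.a4.le
    · rw [map_pow]; exact pow_le_one₀ zero_le hx.le
    · rw [map_mul, map_pow, H.s1, one_pow, one_mul]; exact hx.le
  have h2 : v y ^ 2 < 1 := by
    rw [← map_pow, e, map_mul]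
    exact lt_of_le_of_lt (mul_le_left_of_le_one h1) hx
  by_contra hy
  rw [not_lt] at hy
  exact absurd h2 (not_lt.2 (one_le_pow₀ hy))

/-- on the curve, `v x ≤ v a₄` forces `v y ≤ v a₄` -/
lemma v_y_le_h (H : Hyp v s a₄) (hc : y ^ 2 = x ^ 3 + s ^ 2 * x ^ 2 + a₄ * x)
    (hx : v x ≤ v a₄) : v y ≤ v a₄ := by
  have e : y ^ 2 = x * (x ^ 2 + s ^ 2 * x + a₄) := by rw [hc]; ring
  have hx1 : v x ≤ 1 := hx.trans H.a4.le
  have h1 : v (x ^ 2 + s ^ 2 * x + a₄) ≤ v a₄ := by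
    refine v_add_le v (v_add_le v ?_ ?_) le_rfl
    · rw [map_pow]; exact (sq_le_self hx1).trans hx
    · rw [map_mul, map_pow, H.s1, one_pow, one_mul]; exact hx
  apply le_of_sq_le_sq
  rw [← map_pow, e, map_mul, sq (v a₄)]
  exact mul_le_mul' hx h1

/-- the two branches at the node -/
lemma dich (H : Hyp v s a₄) (hc : y ^ 2 = x ^ 3 + s ^ 2 * x ^ 2 + a₄ * x)
    (hx : v x < 1) (hx' : v a₄ < v x) :
    (v (y + s * x) < v x ∧ v (y - s * x) = v x) ∨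
      (v (y - s * x) < v x ∧ v (y + s * x) = v x) := by
  have hx0 : v x ≠ 0 := fun h0 => by rw [h0] at hx'; exact absurd hx' (not_lt.2 zero_le)
  have e : (y + s * x) * (y - s * x) = x * (x ^ 2 + a₄) := by
    have : (y + s * x) * (y - s * x) = y ^ 2 - s ^ 2 * x ^ 2 := by ring
    rw [this, hc]; ring
  have h1 : v (x ^ 2 + a₄) < v x :=
    v_add_lt v (by rw [map_pow]; exact sq_lt_self hx hx0) hx'
  have h2 : v (y + s * x) * v (y - s * x) < v x * v x := by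
    rw [← map_mul, e, map_mul]
    exact mul_lt_mul_ws le_rfl h1 hx0
  have h2s : v (2 * s * x) = v x := by
    rw [map_mul, H.two_s, one_mul]
  by_cases hp : v (y + s * x) < v x
  · left
    refine ⟨hp, ?_⟩
    have : y - s * x = -(2 * s * x) + (y + s * x) := by ring
    rw [this, v.map_add_eq_of_lt_left (by rwa [Valuation.map_neg, h2s]), Valuation.map_neg, h2s]
  · right
    rw [not_lt] at hp
    have hm : v (y - s * x) < v x := by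
      by_contra hm
      rw [not_lt] at hm
      exact absurd h2 (not_lt.2 (mul_le_mul' hp hm))
    refine ⟨hm, ?_⟩
    have : y + s * x = 2 * s * x + (y - s * x) := by ring
    rw [this, v.map_add_eq_of_lt_left (by rwa [h2s]), h2s]


/-- three points of the curve on one line, with the Vieta relations of the cubic -/
structure Triple (s a₄ ℓ ν X₁ Y₁ X₂ Y₂ X₃ Y₃ : K) : Prop where
  p₁ : OnLine s a₄ ℓ ν X₁ Y₁
  p₂ : OnLine s a₄ ℓ ν X₂ Y₂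
  p₃ : OnLine s a₄ ℓ ν X₃ Y₃
  V1 : X₁ + X₂ + X₃ = ℓ ^ 2 - s ^ 2
  V2 : X₁ * X₂ + X₁ * X₃ + X₂ * X₃ = a₄ - 2 * ℓ * ν
  V3 : X₁ * X₂ * X₃ = ν ^ 2

variable {X₁ Y₁ X₂ Y₂ X₃ Y₃ : K}

lemma Triple.swap12 (T : Triple s a₄ ℓ ν X₁ Y₁ X₂ Y₂ X₃ Y₃) :
    Triple s a₄ ℓ ν X₂ Y₂ X₁ Y₁ X₃ Y₃ :=
  ⟨T.p₂, T.p₁, T.p₃, by rw [← T.V1]; ring, by rw [← T.V2]; ring, by rw [← T.V3]; ring⟩

lemma Triple.swap23 (T : Triple s a₄ ℓ ν X₁ Y₁ X₂ Y₂ X₃ Y₃) :
    Triple s a₄ ℓ ν X₁ Y₁ X₃ Y₃ X₂ Y₂ :=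
  ⟨T.p₁, T.p₃, T.p₂, by rw [← T.V1]; ring, by rw [← T.V2]; ring, by rw [← T.V3]; ring⟩

lemma Triple.swap13 (T : Triple s a₄ ℓ ν X₁ Y₁ X₂ Y₂ X₃ Y₃) :
    Triple s a₄ ℓ ν X₃ Y₃ X₂ Y₂ X₁ Y₁ :=
  ⟨T.p₃, T.p₂, T.p₁, by rw [← T.V1]; ring, by rw [← T.V2]; ring, by rw [← T.V3]; ring⟩

lemma Triple.neg_s (T : Triple s a₄ ℓ ν X₁ Y₁ X₂ Y₂ X₃ Y₃) :
    Triple (-s) a₄ ℓ ν X₁ Y₁ X₂ Y₂ X₃ Y₃ :=
  ⟨T.p₁.neg_s, T.p₂.neg_s, T.p₃.neg_s, by rw [T.V1]; ring, T.V2, T.V3⟩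

/-- **Lemma A**: exactly one of the three points reducing to the node is impossible. -/
lemma no_single (H : Hyp v s a₄) (T : Triple s a₄ ℓ ν X₁ Y₁ X₂ Y₂ X₃ Y₃)
    (h₁ : v X₁ < 1) (h₂ : 1 ≤ v X₂) (h₃ : 1 ≤ v X₃) : False := by
  set M := max (v X₂) (v X₃) with hM
  have hM1 : 1 ≤ M := le_max_of_le_left h₂
  have hM0 : M ≠ 0 := fun h0 => by rw [h0] at hM1; exact absurd hM1 (not_le.2 zero_lt_one)
  have h23 : M ≤ v X₂ * v X₃ := max_le (le_mul_left_of_one_le h₃) (le_mul_right_of_one_le h₂)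
  have hsum : v (X₂ + X₃) ≤ M := v.map_add X₂ X₃
  have h1 : v (X₁ * (X₂ + X₃)) < v (X₂ * X₃) := by
    rw [map_mul, map_mul]
    calc v X₁ * v (X₂ + X₃) ≤ v X₁ * M := mul_le_mul' le_rfl hsum
      _ < M := mul_lt_right_of_lt_one h₁ hM0
      _ ≤ v X₂ * v X₃ := h23
  have he2 : v (a₄ - 2 * ℓ * ν) = v X₂ * v X₃ := by
    rw [← T.V2, show X₁ * X₂ + X₁ * X₃ + X₂ * X₃ = X₂ * X₃ + X₁ * (X₂ + X₃) by ring,
      v.map_add_eq_of_lt_left h1, map_mul]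
  have h231 : 1 ≤ v X₂ * v X₃ := hM1.trans h23
  have hlν : v ℓ * v ν = v X₂ * v X₃ := by
    have hlt : v a₄ < v (a₄ - 2 * ℓ * ν) := by rw [he2]; exact lt_of_lt_of_le H.a4 h231
    have : v (-(2 * ℓ * ν)) = v (a₄ - 2 * ℓ * ν) :=
      v_eq_of_add_eq v (by ring) hlt
    rw [← he2, ← this, Valuation.map_neg, map_mul, map_mul, H.two, one_mul]
  have hν0 : v ν ≠ 0 := fun h0 => by
    rw [h0, mul_zero] at hlν
    rw [← hlν] at h231
    exact absurd h231 (not_le.2 zero_lt_one)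
  have hν : v ν = v X₁ * v ℓ := by
    have h3 : v X₁ * (v X₂ * v X₃) = v ν * v ν := by
      rw [← map_mul, ← map_mul, ← map_mul, ← mul_assoc, T.V3, sq]
    rw [← hlν, ← mul_assoc] at h3
    exact ((mul_left_inj' hν0).1 h3).symm
  have hprod : v X₂ * v X₃ = v ℓ ^ 2 * v X₁ := by
    rw [← hlν, hν, sq]; ac_rfl
  rcases le_or_gt (v ℓ) 1 with hl | hl
  · have : v X₂ * v X₃ < 1 := by
      rw [hprod]
      exact lt_of_le_of_lt (mul_le_right_of_le_one (pow_le_one₀ zero_le hl)) h₁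
    exact absurd h231 (not_le.2 this)
  · have hl2 : 1 < v ℓ ^ 2 := one_lt_pow₀ hl (by norm_num)
    have hl0 : v ℓ ^ 2 ≠ 0 := fun h0 => by rw [h0] at hl2; exact absurd hl2 (not_lt.2 zero_le)
    have e : X₂ + X₃ = ℓ ^ 2 + (-(s ^ 2) - X₁) := by
      have := T.V1
      linear_combination this
    have hsm : v (-(s ^ 2) - X₁) < v (ℓ ^ 2) := by
      rw [map_pow]
      refine v_sub_lt v ?_ (h₁.trans hl2)
      rw [Valuation.map_neg, map_pow, H.s1, one_pow]; exact hl2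
    have hs23 : v (X₂ + X₃) = v ℓ ^ 2 := by
      rw [e, v.map_add_eq_of_lt_left hsm, map_pow]
    have : v ℓ ^ 2 < v ℓ ^ 2 := by
      calc v ℓ ^ 2 = v (X₂ + X₃) := hs23.symm
        _ ≤ M := hsum
        _ ≤ v X₂ * v X₃ := h23
        _ = v ℓ ^ 2 * v X₁ := hprod
        _ < v ℓ ^ 2 := mul_lt_left_of_lt_one h₁ hl0
    exact lt_irrefl _ this


/-! ### Two points at the node -/

/-- if `ℓ² - s²` is not small, then `v (ℓ - t) = max 1 (v ℓ)` for `t = ± s` -/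
lemma v_l_sub (H : Hyp v s a₄) (hls : 1 ≤ v (ℓ ^ 2 - s ^ 2)) {t : K} (ht : v t = 1)
    (ht2 : t ^ 2 = s ^ 2) : v (ℓ - t) = max 1 (v ℓ) := by
  rcases lt_trichotomy (v ℓ) 1 with hl | hl | hl
  · rw [max_eq_left hl.le]
    have : ℓ - t = -t + ℓ := by ring
    rw [this, v.map_add_eq_of_lt_left (by rwa [Valuation.map_neg, ht]), Valuation.map_neg, ht]
  · rw [hl, max_self]
    have h1 : v (ℓ - t) ≤ 1 := v_sub_le v hl.le ht.le
    have h2 : v (ℓ + t) ≤ 1 := v_add_le v hl.le ht.le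
    have h3 : v (ℓ - t) * v (ℓ + t) = v (ℓ ^ 2 - s ^ 2) := by
      rw [← map_mul, ← ht2]; congr 1; ring
    refine le_antisymm h1 ?_
    by_contra hlt
    rw [not_le] at hlt
    have : v (ℓ - t) * v (ℓ + t) < 1 :=
      lt_of_le_of_lt (mul_le_left_of_le_one h2) hlt
    rw [h3] at this
    exact absurd hls (not_le.2 this)
  · rw [max_eq_right hl.le]
    exact v.map_sub_eq_of_lt_left (by rwa [ht])

lemma one_le_Lam : (1 : Γ₀) ≤ max 1 (v ℓ) := le_max_left _ _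

lemma Lam_ne_zero : max 1 (v ℓ) ≠ 0 := fun h0 => by
  have := one_le_Lam (v := v) (ℓ := ℓ)
  rw [h0] at this
  exact absurd this (not_le.2 zero_lt_one)

/-- a non-middle point at the node on a line with `v (ℓ - t) = Λ ≥ 1` -/
lemma nu_of_sign {t : K} {Λ : Γ₀} (hΛ : v (ℓ - t) = Λ) (hΛ1 : 1 ≤ Λ)
    (hl : y = ℓ * x + ν) (hx0 : v x ≠ 0) (hsg : v (y - t * x) < v x) : v ν = Λ * v x := by
  have e : ν = -((ℓ - t) * x) + (y - t * x) := by rw [hl]; ring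
  have hdom : v (y - t * x) < v (-((ℓ - t) * x)) := by
    rw [Valuation.map_neg, map_mul, hΛ]
    exact lt_of_lt_of_le hsg (le_mul_right_of_one_le hΛ1)
  rw [e, v.map_add_eq_of_lt_left hdom, Valuation.map_neg, map_mul, hΛ]

/-- a middle point on a line -/
lemma nu_of_mid (H : Hyp v s a₄) (hp : OnLine s a₄ ℓ ν x y) (hx : v x ≤ v a₄) :
    v ν ≤ max 1 (v ℓ) * v a₄ := by
  have e : ν = y - ℓ * x := by rw [hp.line]; ring
  rw [e]
  refine v_sub_le v ?_ ?_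
  · exact (v_y_le_h H hp.curve hx).trans (le_mul_right_of_one_le one_le_Lam)
  · rw [map_mul]; exact mul_le_mul' (le_max_right _ _) hx

/-- two non-middle points at the node with the same sign, third point away: impossible -/
lemma same_sign_absurd (H : Hyp v s a₄) (T : Triple s a₄ ℓ ν X₁ Y₁ X₂ Y₂ X₃ Y₃)
    (h₁ : v X₁ < 1) (h₂ : v X₂ < 1) (h₃ : 1 ≤ v X₃)
    (k₁ : v a₄ < v X₁) (k₂ : v a₄ < v X₂) {t : K} (ht : v t = 1) (ht2 : t ^ 2 = s ^ 2)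
    (s₁ : v (Y₁ - t * X₁) < v X₁) (s₂ : v (Y₂ - t * X₂) < v X₂) : False := by
  have hX10 : v X₁ ≠ 0 := fun h0 => by rw [h0] at k₁; exact absurd k₁ (not_lt.2 zero_le)
  have hX20 : v X₂ ≠ 0 := fun h0 => by rw [h0] at k₂; exact absurd k₂ (not_lt.2 zero_le)
  have hS1 : v (X₁ + X₂) < 1 := v_add_lt v h₁ h₂
  have hls : 1 ≤ v (ℓ ^ 2 - s ^ 2) := by
    have : v (ℓ ^ 2 - s ^ 2) = v X₃ := by
      rw [← T.V1, show X₁ + X₂ + X₃ = X₃ + (X₁ + X₂) by ring]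
      exact v.map_add_eq_of_lt_left (lt_of_lt_of_le hS1 h₃)
    rw [this]; exact h₃
  set Λ := max 1 (v ℓ) with hΛdef
  have hΛ : v (ℓ - t) = Λ := v_l_sub H hls ht ht2
  have hΛ1 : 1 ≤ Λ := one_le_Lam
  have hΛ0 : Λ ≠ 0 := Lam_ne_zero
  have n₁ : v ν = Λ * v X₁ := nu_of_sign hΛ hΛ1 T.p₁.line hX10 s₁
  have n₂ : v ν = Λ * v X₂ := nu_of_sign hΛ hΛ1 T.p₂.line hX20 s₂
  have heq : v X₁ = v X₂ := by
    have := n₁.symm.trans n₂
    rw [mul_comm Λ, mul_comm Λ] at this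
    exact (mul_left_inj' hΛ0).1 this
  rw [← heq] at s₂
  -- the difference is small
  have hdiff : v (X₁ - X₂) < v X₁ := by
    have e : (ℓ - t) * (X₁ - X₂) = (Y₁ - t * X₁) - (Y₂ - t * X₂) := by
      rw [T.p₁.line, T.p₂.line]; ring
    have h1 : Λ * v (X₁ - X₂) < v X₁ := by
      rw [← hΛ, ← map_mul, e]; exact v_sub_lt v s₁ s₂
    exact lt_of_le_of_lt (le_mul_right_of_one_le hΛ1) h1
  have h2X : v (2 * X₁) = v X₁ := by rw [map_mul, H.two, one_mul]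
  have hS : v (X₁ + X₂) = v X₁ := by
    have e : X₁ + X₂ = 2 * X₁ + -(X₁ - X₂) := by ring
    rw [e, v.map_add_eq_of_lt_left (by rwa [Valuation.map_neg, h2X]), h2X]
  have key : t * (ℓ - t) * (X₁ + X₂) +
      (X₁ * X₂ - (X₁ + X₂) ^ 2 + ℓ * ((Y₁ - t * X₁) + (Y₂ - t * X₂)) - a₄) = 0 := by
    linear_combination T.V2 - (X₁ + X₂) * T.V1 - (X₁ + X₂) * ht2 + ℓ * T.p₁.line +
      ℓ * T.p₂.line
  have hmain : v (t * (ℓ - t) * (X₁ + X₂)) = Λ * v X₁ := by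
    rw [map_mul, map_mul, ht, one_mul, hΛ, hS]
  have hlow : v X₁ ≤ Λ * v X₁ := le_mul_right_of_one_le hΛ1
  have hrest : v (X₁ * X₂ - (X₁ + X₂) ^ 2 + ℓ * ((Y₁ - t * X₁) + (Y₂ - t * X₂)) - a₄) <
      Λ * v X₁ := by
    refine v_sub_lt v (v_add_lt v (v_sub_lt v ?_ ?_) ?_) (lt_of_lt_of_le k₁ hlow)
    · rw [map_mul, ← heq]
      exact lt_of_lt_of_le (mul_lt_right_of_lt_one h₁ hX10) hlow
    · rw [map_pow, hS]
      exact lt_of_lt_of_le (sq_lt_self h₁ hX10) hlow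
    · rw [map_mul]
      calc v ℓ * v ((Y₁ - t * X₁) + (Y₂ - t * X₂)) ≤ Λ * v ((Y₁ - t * X₁) + (Y₂ - t * X₂)) :=
            mul_le_mul' (le_max_right _ _) le_rfl
        _ < Λ * v X₁ := mul_lt_mul_ws le_rfl (v_add_lt v s₁ s₂) hΛ0
  exact ne_zero_of_dom v (by rw [hmain]; exact hrest) key


lemma hls_of_two (T : Triple s a₄ ℓ ν X₁ Y₁ X₂ Y₂ X₃ Y₃)
    (h₁ : v X₁ < 1) (h₂ : v X₂ < 1) (h₃ : 1 ≤ v X₃) : 1 ≤ v (ℓ ^ 2 - s ^ 2) := by
  have hS1 : v (X₁ + X₂) < 1 := v_add_lt v h₁ h₂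
  have : v (ℓ ^ 2 - s ^ 2) = v X₃ := by
    rw [← T.V1, show X₁ + X₂ + X₃ = X₃ + (X₁ + X₂) by ring]
    exact v.map_add_eq_of_lt_left (lt_of_lt_of_le hS1 h₃)
  rw [this]; exact h₃

lemma sub_neg_mul (y s x : K) : y - -s * x = y + s * x := by ring

/-- **Lemma B**: exactly two points at the node. -/
lemma two_nodal (H : Hyp v s a₄) (T : Triple s a₄ ℓ ν X₁ Y₁ X₂ Y₂ X₃ Y₃)
    (h₁ : v X₁ < 1) (h₂ : v X₂ < 1) (h₃ : 1 ≤ v X₃) :
    (v X₁ ≤ v a₄ ∧ v X₂ ≤ v a₄) ∨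
    (v a₄ < v X₁ ∧ v a₄ < v X₂ ∧ v X₁ = v X₂ ∧
      ((v (Y₁ + s * X₁) < v X₁ ∧ v (Y₂ - s * X₂) < v X₂) ∨
       (v (Y₁ - s * X₁) < v X₁ ∧ v (Y₂ + s * X₂) < v X₂))) := by
  have hls := hls_of_two T h₁ h₂ h₃
  have hΛ1 : (1 : Γ₀) ≤ max 1 (v ℓ) := one_le_Lam
  have hΛ0 : max 1 (v ℓ) ≠ 0 := Lam_ne_zero
  have hΛs : v (ℓ - s) = max 1 (v ℓ) := v_l_sub H hls H.s1 rfl
  have hΛn : v (ℓ - -s) = max 1 (v ℓ) :=
    v_l_sub H hls (by rw [Valuation.map_neg]; exact H.s1) (by ring)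
  have ne0 : ∀ {x : K}, v a₄ < v x → v x ≠ 0 := fun {x} k h0 => by
    rw [h0] at k; exact absurd k (not_lt.2 zero_le)
  -- a non-middle point determines `v ν`
  have nonmid : ∀ {x y : K}, OnLine s a₄ ℓ ν x y → v x < 1 → v a₄ < v x →
      v ν = max 1 (v ℓ) * v x := by
    intro x y hp hx kx
    rcases dich H hp.curve hx kx with ⟨hs, -⟩ | ⟨hs, -⟩
    · exact nu_of_sign hΛn hΛ1 hp.line (ne0 kx) (by rwa [sub_neg_mul])
    · exact nu_of_sign hΛs hΛ1 hp.line (ne0 kx) hs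
  have cancel : ∀ {a b : Γ₀}, max 1 (v ℓ) * a ≤ max 1 (v ℓ) * b → a ≤ b := by
    intro a b hab
    by_contra hlt
    rw [not_le] at hlt
    exact absurd hab (not_le.2 (mul_lt_mul_ws le_rfl hlt hΛ0))
  rcases le_or_gt (v X₁) (v a₄) with m₁ | k₁ <;> rcases le_or_gt (v X₂) (v a₄) with m₂ | k₂
  · exact Or.inl ⟨m₁, m₂⟩
  · exfalso
    have a := nonmid T.p₂ h₂ k₂
    have b := nu_of_mid H T.p₁ m₁
    rw [a] at b
    exact absurd (cancel b) (not_le.2 k₂)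
  · exfalso
    have a := nonmid T.p₁ h₁ k₁
    have b := nu_of_mid H T.p₂ m₂
    rw [a] at b
    exact absurd (cancel b) (not_le.2 k₁)
  · right
    have a := nonmid T.p₁ h₁ k₁
    have b := nonmid T.p₂ h₂ k₂
    have heq : v X₁ = v X₂ := by
      rw [a] at b
      exact le_antisymm (cancel b.le) (cancel b.ge)
    refine ⟨k₁, k₂, heq, ?_⟩
    rcases dich H T.p₁.curve h₁ k₁ with ⟨hs₁, -⟩ | ⟨hs₁, -⟩ <;>
      rcases dich H T.p₂.curve h₂ k₂ with ⟨hs₂, -⟩ | ⟨hs₂, -⟩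
    · exfalso
      exact same_sign_absurd H T h₁ h₂ h₃ k₁ k₂ (t := -s)
        (by rw [Valuation.map_neg]; exact H.s1) (by ring)
        (by rwa [sub_neg_mul]) (by rwa [sub_neg_mul])
    · exact Or.inl ⟨hs₁, hs₂⟩
    · exact Or.inr ⟨hs₁, hs₂⟩
    · exfalso
      exact same_sign_absurd H T h₁ h₂ h₃ k₁ k₂ H.s1 rfl hs₁ hs₂


/-! ### The component representative -/

variable (v) in
open Classical in
/-- the component representative of an affine point `(x, y)` -/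
noncomputable def cmp (s a₄ x y : K) : Γ₀ :=
  if 1 ≤ v x then 1
  else if v x ≤ v a₄ then v a₄
  else if v (y + s * x) < v x then v x
  else (v x)⁻¹

lemma cmp_far (hx : 1 ≤ v x) : cmp v s a₄ x y = 1 := by
  rw [cmp, if_pos hx]

lemma cmp_mid (H : Hyp v s a₄) (hx : v x ≤ v a₄) : cmp v s a₄ x y = v a₄ := by
  rw [cmp, if_neg (not_le.2 (lt_of_le_of_lt hx H.a4)), if_pos hx]

lemma cmp_plus (hx : v x < 1) (kx : v a₄ < v x) (hs : v (y + s * x) < v x) :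
    cmp v s a₄ x y = v x := by
  rw [cmp, if_neg (not_le.2 hx), if_neg (not_le.2 kx), if_pos hs]

lemma cmp_minus (H : Hyp v s a₄) (hc : y ^ 2 = x ^ 3 + s ^ 2 * x ^ 2 + a₄ * x)
    (hx : v x < 1) (kx : v a₄ < v x) (hs : v (y - s * x) < v x) :
    cmp v s a₄ x y = (v x)⁻¹ := by
  have hns : ¬ v (y + s * x) < v x := by
    rcases dich H hc hx kx with ⟨h1, h2⟩ | ⟨h1, h2⟩
    · rw [h2] at hs; exact absurd hs (lt_irrefl _)
    · rw [h2]; exact lt_irrefl _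
  rw [cmp, if_neg (not_le.2 hx), if_neg (not_le.2 kx), if_neg hns]

lemma cmp_ne_zero (H : Hyp v s a₄) : cmp v s a₄ x y ≠ 0 := by
  unfold cmp
  split_ifs with h1 h2 h3
  · exact one_ne_zero
  · exact H.h_ne
  · rw [not_le] at h2
    exact fun h0 => by rw [h0] at h2; exact absurd h2 (not_lt.2 zero_le)
  · rw [not_le] at h2
    exact inv_ne_zero fun h0 => by rw [h0] at h2; exact absurd h2 (not_lt.2 zero_le)

/-- negating `y` inverts the component, up to `h²` -/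
lemma cmp_neg_y (H : Hyp v s a₄) (hc : y ^ 2 = x ^ 3 + s ^ 2 * x ^ 2 + a₄ * x) :
    ∃ j : ℤ, cmp v s a₄ x (-y) = (cmp v s a₄ x y)⁻¹ * v a₄ ^ (2 * j) := by
  have hc' : (-y) ^ 2 = x ^ 3 + s ^ 2 * x ^ 2 + a₄ * x := by rw [neg_sq]; exact hc
  rcases le_or_gt 1 (v x) with hx | hx
  · exact ⟨0, by rw [cmp_far hx, cmp_far hx]; simp⟩
  rcases le_or_gt (v x) (v a₄) with mx | kx
  · refine ⟨1, ?_⟩
    rw [cmp_mid H mx, cmp_mid H mx, mul_one, zpow_ofNat, sq, ← mul_assoc,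
      inv_mul_cancel₀ H.h_ne, one_mul]
  · have hx0 : v x ≠ 0 := fun h0 => by rw [h0] at kx; exact absurd kx (not_lt.2 zero_le)
    refine ⟨0, ?_⟩
    rw [mul_zero, zpow_zero, mul_one]
    rcases dich H hc hx kx with ⟨h1, -⟩ | ⟨h1, -⟩
    · rw [cmp_plus hx kx h1, cmp_minus H hc' hx kx
        (by rw [show -y - s * x = -(y + s * x) by ring, Valuation.map_neg]; exact h1)]
    · rw [cmp_minus H hc hx kx h1, inv_inv, cmp_plus hx kx
        (by rw [show -y + s * x = -(y - s * x) by ring, Valuation.map_neg]; exact h1)]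

/-- replacing `s` by `-s` inverts the component, up to `h²` -/
lemma cmp_neg_s (H : Hyp v s a₄) (hc : y ^ 2 = x ^ 3 + s ^ 2 * x ^ 2 + a₄ * x) :
    ∃ j : ℤ, cmp v (-s) a₄ x y = (cmp v s a₄ x y)⁻¹ * v a₄ ^ (2 * j) := by
  have hc' : y ^ 2 = x ^ 3 + (-s) ^ 2 * x ^ 2 + a₄ * x := by rw [neg_sq]; exact hc
  rcases le_or_gt 1 (v x) with hx | hx
  · exact ⟨0, by rw [cmp_far hx, cmp_far hx]; simp⟩
  rcases le_or_gt (v x) (v a₄) with mx | kx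
  · refine ⟨1, ?_⟩
    rw [cmp_mid H.neg mx, cmp_mid H mx, mul_one, zpow_ofNat, sq, ← mul_assoc,
      inv_mul_cancel₀ H.h_ne, one_mul]
  · refine ⟨0, ?_⟩
    rw [mul_zero, zpow_zero, mul_one]
    rcases dich H hc hx kx with ⟨h1, -⟩ | ⟨h1, -⟩
    · rw [cmp_plus hx kx h1, cmp_minus H.neg hc' hx kx (by rwa [sub_neg_mul])]
    · rw [cmp_minus H hc hx kx h1, inv_inv, cmp_plus hx kx
        (by rw [show y + -s * x = y - s * x by ring]; exact h1)]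


/-! ### Three points at the node -/

variable (v) in
/-- class `A`: non-middle, on the branch of the line -/
def IsA (s a₄ ν x y : K) : Prop := v a₄ < v x ∧ v ν < v x ∧ v (y + s * x) < v x

variable (v) in
/-- class `B`: non-middle, on the other branch -/
def IsB (s a₄ ν x y : K) : Prop := v a₄ < v x ∧ v ν = v x ∧ v (y - s * x) < v x

variable (v) in
/-- class `C`: middle -/
def IsC (a₄ ν x : K) : Prop := v x ≤ v a₄ ∧ v ν ≤ v a₄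

lemma classify (H : Hyp v s a₄) (hp : OnLine s a₄ ℓ ν x y) (hx : v x < 1) (hl : v ℓ = 1)
    (hp1 : v (ℓ + s) < 1) (hm1 : v (ℓ - s) = 1) :
    IsA v s a₄ ν x y ∨ IsB v s a₄ ν x y ∨ IsC v a₄ ν x := by
  rcases le_or_gt (v x) (v a₄) with mx | kx
  · right; right
    refine ⟨mx, ?_⟩
    have := nu_of_mid H hp mx
    rwa [hl, max_self, one_mul] at this
  · have hx0 : v x ≠ 0 := fun h0 => by rw [h0] at kx; exact absurd kx (not_lt.2 zero_le)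
    rcases dich H hp.curve hx kx with ⟨h1, -⟩ | ⟨h1, -⟩
    · left
      refine ⟨kx, ?_, h1⟩
      have e : ν = (y + s * x) - (ℓ + s) * x := by rw [hp.line]; ring
      rw [e]
      refine v_sub_lt v h1 ?_
      rw [map_mul]; exact mul_lt_right_of_lt_one hp1 hx0
    · right; left
      refine ⟨kx, ?_, h1⟩
      have := nu_of_sign (v := v) (t := s) (Λ := 1) hm1 le_rfl hp.line hx0 h1
      rwa [one_mul] at this

section shapes

variable (H : Hyp v s a₄) (T : Triple s a₄ ℓ ν X₁ Y₁ X₂ Y₂ X₃ Y₃)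
  (h₁ : v X₁ < 1) (h₂ : v X₂ < 1) (h₃ : v X₃ < 1) (hl : v ℓ = 1)

include H T h₁ h₂ h₃ hl

lemma prod_eq : v X₁ * v X₂ * v X₃ = v ν ^ 2 := by
  rw [← map_mul, ← map_mul, T.V3, map_pow]

lemma v_two_l_nu : v (2 * ℓ * ν) = v ν := by
  rw [map_mul, map_mul, H.two, hl, one_mul, one_mul]

/-- shape with a `B` point in the third position -/
lemma shapeB (b₃ : IsB v s a₄ ν X₃ Y₃)
    (c₁ : IsA v s a₄ ν X₁ Y₁ ∨ IsB v s a₄ ν X₁ Y₁ ∨ IsC v a₄ ν X₁)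
    (c₂ : IsA v s a₄ ν X₂ Y₂ ∨ IsB v s a₄ ν X₂ Y₂ ∨ IsC v a₄ ν X₂) :
    IsA v s a₄ ν X₁ Y₁ ∧ IsA v s a₄ ν X₂ Y₂ ∧ v X₁ * v X₂ = v X₃ := by
  obtain ⟨k₃, e₃, -⟩ := b₃
  have hν0 : v ν ≠ 0 := fun h0 => by
    rw [← e₃, h0] at k₃; exact absurd k₃ (not_lt.2 zero_le)
  have hp : v X₁ * v X₂ = v ν := by
    have := prod_eq H T h₁ h₂ h₃ hl
    rw [← e₃, sq] at this
    exact (mul_left_inj' hν0).1 this
  have notB1 : ¬ IsB v s a₄ ν X₁ Y₁ := fun ⟨_, e, _⟩ => by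
    rw [← e] at hp
    have : v ν * v X₂ < v ν := mul_lt_left_of_lt_one h₂ hν0
    rw [hp] at this; exact lt_irrefl _ this
  have notB2 : ¬ IsB v s a₄ ν X₂ Y₂ := fun ⟨_, e, _⟩ => by
    rw [← e] at hp
    have : v X₁ * v ν < v ν := mul_lt_right_of_lt_one h₁ hν0
    rw [hp] at this; exact lt_irrefl _ this
  have notC : ∀ {x : K}, ¬ IsC v a₄ ν x := fun {x} ⟨_, m⟩ => by
    rw [← e₃] at k₃; exact absurd m (not_le.2 k₃)
  refine ⟨?_, ?_, by rw [hp, e₃]⟩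
  · rcases c₁ with a | b | c
    · exact a
    · exact absurd b notB1
    · exact absurd c notC
  · rcases c₂ with a | b | c
    · exact a
    · exact absurd b notB2
    · exact absurd c notC

/-- all pairwise products are smaller than `m` as soon as ... -/
lemma e2_lt {m : Γ₀} (p12 : v X₁ * v X₂ < m) (p13 : v X₁ * v X₃ < m) (p23 : v X₂ * v X₃ < m) :
    v (a₄ - 2 * ℓ * ν) < m := by
  rw [← T.V2]
  refine v_add_lt v (v_add_lt v ?_ ?_) ?_ <;> rw [map_mul] <;> assumption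

/-- shape with three `A` points -/
lemma shapeAAA (a₁ : IsA v s a₄ ν X₁ Y₁) (a₂ : IsA v s a₄ ν X₂ Y₂) (a₃ : IsA v s a₄ ν X₃ Y₃) :
    v X₁ * v X₂ * v X₃ = v a₄ ^ 2 := by
  have hprod := prod_eq H T h₁ h₂ h₃ hl
  have h2ν := v_two_l_nu H T h₁ h₂ h₃ hl
  obtain ⟨k₁, n₁, -⟩ := a₁
  obtain ⟨k₂, n₂, -⟩ := a₂
  obtain ⟨k₃, n₃, -⟩ := a₃
  have hh0 : v a₄ ≠ 0 := H.h_ne
  have hX10 : v X₁ ≠ 0 := fun h0 => by rw [h0] at k₁; exact absurd k₁ (not_lt.2 zero_le)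
  have hX20 : v X₂ ≠ 0 := fun h0 => by rw [h0] at k₂; exact absurd k₂ (not_lt.2 zero_le)
  have hX30 : v X₃ ≠ 0 := fun h0 => by rw [h0] at k₃; exact absurd k₃ (not_lt.2 zero_le)
  -- generic bound: if `m * m ≥ v ν ^ 2` and every `v X_i > m` then pairwise products `< m`
  have bound : ∀ {m : Γ₀}, m ≠ 0 → v ν ^ 2 ≤ m * m → m < v X₁ → m < v X₂ → m < v X₃ →
      v (a₄ - 2 * ℓ * ν) < m := by
    intro m hm0 hm g₁ g₂ g₃
    have aux : ∀ {a b c : Γ₀}, a * b * c = v ν ^ 2 → m < c → a * b < m := by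
      intro a b c habc hc
      by_contra hge
      rw [not_lt] at hge
      have : m * m < a * b * c := mul_lt_mul_ws hge hc hm0
      rw [habc] at this
      exact absurd hm (not_le.2 this)
    refine e2_lt H T h₁ h₂ h₃ hl (aux hprod g₃) (aux (by rw [← hprod]; ac_rfl) g₂)
      (aux (by rw [← hprod]; ac_rfl) g₁)
  rcases lt_trichotomy (v ν) (v a₄) with hlt | heq | hgt
  · exfalso
    have e : v (a₄ - 2 * ℓ * ν) = v a₄ :=
      v.map_sub_eq_of_lt_left (by rw [h2ν]; exact hlt)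
    have := bound hh0 (by rw [sq]; exact mul_le_mul' hlt.le hlt.le) k₁ k₂ k₃
    rw [e] at this; exact lt_irrefl _ this
  · rw [hprod, heq]
  · exfalso
    have hν0 : v ν ≠ 0 := fun h0 => by rw [h0] at hgt; exact absurd hgt (not_lt.2 zero_le)
    have e : v (a₄ - 2 * ℓ * ν) = v ν := by
      rw [← h2ν]; exact v.map_sub_eq_of_lt_right (by rw [h2ν]; exact hgt)
    have := bound hν0 (by rw [sq]) n₁ n₂ n₃
    rw [e] at this; exact lt_irrefl _ this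


/-- shape with a `C` point in the third position and `A` points elsewhere -/
lemma shapeC (a₁ : IsA v s a₄ ν X₁ Y₁) (a₂ : IsA v s a₄ ν X₂ Y₂) (c₃ : IsC v a₄ ν X₃) :
    v X₁ * v X₂ = v a₄ := by
  have hprod := prod_eq H T h₁ h₂ h₃ hl
  have h2ν := v_two_l_nu H T h₁ h₂ h₃ hl
  obtain ⟨k₁, n₁, -⟩ := a₁
  obtain ⟨k₂, n₂, -⟩ := a₂
  obtain ⟨m₃, mν⟩ := c₃
  have hh0 : v a₄ ≠ 0 := H.h_ne
  have s13 : v (X₁ * X₃) < v a₄ := by
    rw [map_mul]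
    exact lt_of_le_of_lt (mul_le_mul' le_rfl m₃) (mul_lt_right_of_lt_one h₁ hh0)
  have s23 : v (X₂ * X₃) < v a₄ := by
    rw [map_mul]
    exact lt_of_le_of_lt (mul_le_mul' le_rfl m₃) (mul_lt_right_of_lt_one h₂ hh0)
  have hsmall : v (X₁ * X₃ + X₂ * X₃) < v a₄ := v_add_lt v s13 s23
  have e12 : X₁ * X₂ + (X₁ * X₃ + X₂ * X₃) = a₄ - 2 * ℓ * ν := by rw [← T.V2]; ring
  rcases lt_or_eq_of_le mν with hlt | heq
  · have e : v (a₄ - 2 * ℓ * ν) = v a₄ :=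
      v.map_sub_eq_of_lt_left (by rw [h2ν]; exact hlt)
    have := v_eq_of_add_eq v e12 (by rw [e]; exact hsmall)
    rw [← map_mul, this, e]
  · have hE : v (a₄ - 2 * ℓ * ν) ≤ v a₄ := v_sub_le v le_rfl (by rw [h2ν]; exact mν)
    have hle : v X₁ * v X₂ ≤ v a₄ := by
      rw [← map_mul, show X₁ * X₂ = (a₄ - 2 * ℓ * ν) - (X₁ * X₃ + X₂ * X₃) by rw [← e12]; ring]
      exact v_sub_le v hE hsmall.le
    refine le_antisymm hle ?_
    by_contra hlt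
    rw [not_le] at hlt
    have hX30 : v X₃ ≠ 0 := fun h0 => by
      rw [h0, mul_zero, heq] at hprod
      exact pow_ne_zero 2 hh0 hprod.symm
    have : v X₁ * v X₂ * v X₃ < v a₄ * v a₄ := mul_lt_mul_sw hlt m₃ hX30
    rw [hprod, heq, sq] at this
    exact lt_irrefl _ this

/-- two `C` points are impossible -/
lemma shapeCC (c₂ : IsC v a₄ ν X₂) (c₃ : IsC v a₄ ν X₃) : False := by
  have hprod := prod_eq H T h₁ h₂ h₃ hl
  have h2ν := v_two_l_nu H T h₁ h₂ h₃ hl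
  obtain ⟨m₂, mν⟩ := c₂
  obtain ⟨m₃, -⟩ := c₃
  have hh0 : v a₄ ≠ 0 := H.h_ne
  have s12 : v X₁ * v X₂ < v a₄ :=
    lt_of_le_of_lt (mul_le_mul' le_rfl m₂) (mul_lt_right_of_lt_one h₁ hh0)
  have s13 : v X₁ * v X₃ < v a₄ :=
    lt_of_le_of_lt (mul_le_mul' le_rfl m₃) (mul_lt_right_of_lt_one h₁ hh0)
  have s23 : v X₂ * v X₃ < v a₄ :=
    lt_of_le_of_lt (mul_le_mul' m₂ m₃) (mul_lt_right_of_lt_one H.a4 hh0)
  have hE := e2_lt H T h₁ h₂ h₃ hl s12 s13 s23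
  rcases lt_or_eq_of_le mν with hlt | heq
  · have e : v (a₄ - 2 * ℓ * ν) = v a₄ :=
      v.map_sub_eq_of_lt_left (by rw [h2ν]; exact hlt)
    rw [e] at hE; exact lt_irrefl _ hE
  · have h1 : v X₁ * v X₂ * v X₃ ≤ v X₁ * (v a₄ * v a₄) := by
      rw [mul_assoc]; exact mul_le_mul' le_rfl (mul_le_mul' m₂ m₃)
    have h2 : v X₁ * (v a₄ * v a₄) < v a₄ * v a₄ :=
      mul_lt_right_of_lt_one h₁ (mul_ne_zero hh0 hh0)
    rw [hprod, heq, sq] at h1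
    exact absurd h1 (not_le.2 h2)

end shapes


lemma cmp_A (hx : v x < 1) (a : IsA v s a₄ ν x y) : cmp v s a₄ x y = v x :=
  cmp_plus hx a.1 a.2.2

lemma cmp_B (H : Hyp v s a₄) (hc : y ^ 2 = x ^ 3 + s ^ 2 * x ^ 2 + a₄ * x) (hx : v x < 1)
    (b : IsB v s a₄ ν x y) : cmp v s a₄ x y = (v x)⁻¹ :=
  cmp_minus H hc hx b.1 b.2.2

lemma cmp_C (H : Hyp v s a₄) (c : IsC v a₄ ν x) : cmp v s a₄ x y = v a₄ :=
  cmp_mid H c.1

lemma IsA.ne_zero (a : IsA v s a₄ ν x y) : v x ≠ 0 := fun h0 => by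
  have := a.1; rw [h0] at this; exact absurd this (not_lt.2 zero_le)

lemma IsB.ne_zero (a : IsB v s a₄ ν x y) : v x ≠ 0 := fun h0 => by
  have := a.1; rw [h0] at this; exact absurd this (not_lt.2 zero_le)

/-- three points at the node, line on the `+` branch -/
lemma three_plus (H : Hyp v s a₄) (T : Triple s a₄ ℓ ν X₁ Y₁ X₂ Y₂ X₃ Y₃)
    (h₁ : v X₁ < 1) (h₂ : v X₂ < 1) (h₃ : v X₃ < 1) (hp1 : v (ℓ + s) < 1) :
    cmp v s a₄ X₁ Y₁ * cmp v s a₄ X₂ Y₂ * cmp v s a₄ X₃ Y₃ = 1 ∨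
      cmp v s a₄ X₁ Y₁ * cmp v s a₄ X₂ Y₂ * cmp v s a₄ X₃ Y₃ = v a₄ ^ 2 := by
  have hl : v ℓ = 1 := by
    have e : ℓ = -s + (ℓ + s) := by ring
    rw [e, v.map_add_eq_of_lt_left (by rwa [Valuation.map_neg, H.s1]), Valuation.map_neg, H.s1]
  have hm1 : v (ℓ - s) = 1 := by
    have e : ℓ - s = -(2 * s) + (ℓ + s) := by ring
    rw [e, v.map_add_eq_of_lt_left (by rwa [Valuation.map_neg, H.two_s]), Valuation.map_neg,
      H.two_s]
  have c₁ := classify H T.p₁ h₁ hl hp1 hm1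
  have c₂ := classify H T.p₂ h₂ hl hp1 hm1
  have c₃ := classify H T.p₃ h₃ hl hp1 hm1
  -- a `B` point somewhere
  by_cases b₃ : IsB v s a₄ ν X₃ Y₃
  · obtain ⟨a₁, a₂, e⟩ := shapeB H T h₁ h₂ h₃ hl b₃ c₁ c₂
    left
    rw [cmp_A h₁ a₁, cmp_A h₂ a₂, cmp_B H T.p₃.curve h₃ b₃, e, mul_inv_cancel₀ b₃.ne_zero]
  by_cases b₂ : IsB v s a₄ ν X₂ Y₂
  · obtain ⟨a₁, a₃, e⟩ := shapeB H T.swap23 h₁ h₃ h₂ hl b₂ c₁ c₃
    left
    rw [cmp_A h₁ a₁, cmp_A h₃ a₃, cmp_B H T.p₂.curve h₂ b₂, mul_right_comm, e,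
      mul_inv_cancel₀ b₂.ne_zero]
  by_cases b₁ : IsB v s a₄ ν X₁ Y₁
  · obtain ⟨a₃, a₂, e⟩ := shapeB H T.swap13 h₃ h₂ h₁ hl b₁ c₃ c₂
    left
    rw [cmp_A h₃ a₃, cmp_A h₂ a₂, cmp_B H T.p₁.curve h₁ b₁, mul_assoc, mul_comm (v X₂), e,
      inv_mul_cancel₀ b₁.ne_zero]
  right
  have c₁' : IsA v s a₄ ν X₁ Y₁ ∨ IsC v a₄ ν X₁ := by
    rcases c₁ with a | b | c
    · exact Or.inl a
    · exact absurd b b₁
    · exact Or.inr c
  have c₂' : IsA v s a₄ ν X₂ Y₂ ∨ IsC v a₄ ν X₂ := by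
    rcases c₂ with a | b | c
    · exact Or.inl a
    · exact absurd b b₂
    · exact Or.inr c
  have c₃' : IsA v s a₄ ν X₃ Y₃ ∨ IsC v a₄ ν X₃ := by
    rcases c₃ with a | b | c
    · exact Or.inl a
    · exact absurd b b₃
    · exact Or.inr c
  rcases c₁' with a₁ | k₁ <;> rcases c₂' with a₂ | k₂ <;> rcases c₃' with a₃ | k₃
  · rw [cmp_A h₁ a₁, cmp_A h₂ a₂, cmp_A h₃ a₃]
    exact shapeAAA H T h₁ h₂ h₃ hl a₁ a₂ a₃
  · rw [cmp_A h₁ a₁, cmp_A h₂ a₂, cmp_C H k₃, shapeC H T h₁ h₂ h₃ hl a₁ a₂ k₃, sq]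
  · rw [cmp_A h₁ a₁, cmp_C H k₂, cmp_A h₃ a₃, mul_right_comm,
      shapeC H T.swap23 h₁ h₃ h₂ hl a₁ a₃ k₂, sq]
  · exact (shapeCC H T h₁ h₂ h₃ hl k₂ k₃).elim
  · rw [cmp_C H k₁, cmp_A h₂ a₂, cmp_A h₃ a₃, mul_assoc, mul_comm (v X₂),
      shapeC H T.swap13 h₃ h₂ h₁ hl a₃ a₂ k₁, sq]
  · exact (shapeCC H T.swap12 h₂ h₁ h₃ hl k₁ k₃).elim
  · exact (shapeCC H T.swap13 h₃ h₂ h₁ hl k₂ k₁).elim
  · exact (shapeCC H T h₁ h₂ h₃ hl k₂ k₃).elim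

/-- **Lemma C**: three points at the node. -/
lemma three_nodal (H : Hyp v s a₄) (T : Triple s a₄ ℓ ν X₁ Y₁ X₂ Y₂ X₃ Y₃)
    (h₁ : v X₁ < 1) (h₂ : v X₂ < 1) (h₃ : v X₃ < 1) :
    ∃ j : ℤ, cmp v s a₄ X₁ Y₁ * cmp v s a₄ X₂ Y₂ * cmp v s a₄ X₃ Y₃ = v a₄ ^ (2 * j) := by
  have hls : v (ℓ ^ 2 - s ^ 2) < 1 := by
    rw [← T.V1]; exact v_add_lt v (v_add_lt v h₁ h₂) h₃
  have hprod : v (ℓ + s) * v (ℓ - s) < 1 := by
    rw [← map_mul, show (ℓ + s) * (ℓ - s) = ℓ ^ 2 - s ^ 2 by ring]; exact hls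
  have hh0 : v a₄ ≠ 0 := H.h_ne
  by_cases hp1 : v (ℓ + s) < 1
  · rcases three_plus H T h₁ h₂ h₃ hp1 with e | e
    · exact ⟨0, by rw [e]; simp⟩
    · exact ⟨1, by rw [e]; simp⟩
  · rw [not_lt] at hp1
    have hm : v (ℓ + -s) < 1 := by
      rw [← sub_eq_add_neg]
      by_contra hge
      rw [not_lt] at hge
      exact absurd hprod (not_lt.2 (by simpa using mul_le_mul' hp1 hge))
    obtain ⟨j₁, e₁⟩ := cmp_neg_s H T.p₁.curve
    obtain ⟨j₂, e₂⟩ := cmp_neg_s H T.p₂.curve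
    obtain ⟨j₃, e₃⟩ := cmp_neg_s H T.p₃.curve
    have n₁ : cmp v s a₄ X₁ Y₁ ≠ 0 := cmp_ne_zero H
    have n₂ : cmp v s a₄ X₂ Y₂ ≠ 0 := cmp_ne_zero H
    have n₃ : cmp v s a₄ X₃ Y₃ ≠ 0 := cmp_ne_zero H
    have key : ∀ j' : ℤ, cmp v (-s) a₄ X₁ Y₁ * cmp v (-s) a₄ X₂ Y₂ * cmp v (-s) a₄ X₃ Y₃ =
        v a₄ ^ (2 * j') →
        cmp v s a₄ X₁ Y₁ * cmp v s a₄ X₂ Y₂ * cmp v s a₄ X₃ Y₃ =
          v a₄ ^ (2 * (j₁ + j₂ + j₃ - j')) := by
      intro j' hP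
      rw [e₁, e₂, e₃] at hP
      have e : v a₄ ^ (2 * (j₁ + j₂ + j₃ - j')) =
          v a₄ ^ (2 * j₁) * v a₄ ^ (2 * j₂) * v a₄ ^ (2 * j₃) * (v a₄ ^ (2 * j'))⁻¹ := by
        rw [← zpow_add₀ hh0, ← zpow_add₀ hh0, ← zpow_neg, ← zpow_add₀ hh0]
        congr 1; ring
      rw [e, ← hP]
      field_simp
    rcases three_plus H.neg T.neg_s h₁ h₂ h₃ hm with e | e
    · exact ⟨_, key 0 (by rw [e]; simp)⟩
    · exact ⟨_, key 1 (by rw [e]; simp)⟩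

/-- **The component lemma**: for three collinear points of the curve, the product of the
component representatives is an even power of `v a₄`. -/
theorem cmp_triple (H : Hyp v s a₄) (T : Triple s a₄ ℓ ν X₁ Y₁ X₂ Y₂ X₃ Y₃) :
    ∃ j : ℤ, cmp v s a₄ X₁ Y₁ * cmp v s a₄ X₂ Y₂ * cmp v s a₄ X₃ Y₃ = v a₄ ^ (2 * j) := by
  have fin2 : ∀ {c₁ c₂ : Γ₀}, (c₁ = v a₄ ∧ c₂ = v a₄) ∨ (c₁ * c₂ = 1) →
      ∃ j : ℤ, c₁ * c₂ = v a₄ ^ (2 * j) := by
    rintro c₁ c₂ (⟨e₁, e₂⟩ | e)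
    · exact ⟨1, by rw [e₁, e₂]; simp [sq]⟩
    · exact ⟨0, by rw [e]; simp⟩
  -- the product of the components of two points at the node, third point away
  have two : ∀ {X₁ Y₁ X₂ Y₂ X₃ Y₃ : K}, Triple s a₄ ℓ ν X₁ Y₁ X₂ Y₂ X₃ Y₃ →
      v X₁ < 1 → v X₂ < 1 → 1 ≤ v X₃ →
      ∃ j : ℤ, cmp v s a₄ X₁ Y₁ * cmp v s a₄ X₂ Y₂ = v a₄ ^ (2 * j) := by
    intro X₁ Y₁ X₂ Y₂ X₃ Y₃ T h₁ h₂ h₃
    apply fin2
    rcases two_nodal H T h₁ h₂ h₃ with ⟨m₁, m₂⟩ | ⟨k₁, k₂, heq, hs | hs⟩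
    · exact Or.inl ⟨cmp_mid H m₁, cmp_mid H m₂⟩
    · right
      have hX0 : v X₂ ≠ 0 := fun h0 => by rw [h0] at k₂; exact absurd k₂ (not_lt.2 zero_le)
      rw [cmp_plus h₁ k₁ hs.1, cmp_minus H T.p₂.curve h₂ k₂ hs.2, heq, mul_inv_cancel₀ hX0]
    · right
      have hX0 : v X₂ ≠ 0 := fun h0 => by rw [h0] at k₂; exact absurd k₂ (not_lt.2 zero_le)
      rw [cmp_minus H T.p₁.curve h₁ k₁ hs.1, cmp_plus h₂ k₂ hs.2, heq, inv_mul_cancel₀ hX0]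
  rcases lt_or_ge (v X₁) 1 with h₁ | h₁ <;> rcases lt_or_ge (v X₂) 1 with h₂ | h₂ <;>
    rcases lt_or_ge (v X₃) 1 with h₃ | h₃
  · exact three_nodal H T h₁ h₂ h₃
  · obtain ⟨j, e⟩ := two T h₁ h₂ h₃
    exact ⟨j, by rw [cmp_far h₃, mul_one, e]⟩
  · obtain ⟨j, e⟩ := two T.swap23 h₁ h₃ h₂
    exact ⟨j, by rw [cmp_far h₂, mul_one, e]⟩
  · exact (no_single H T h₁ h₂ h₃).elim
  · obtain ⟨j, e⟩ := two T.swap13 h₃ h₂ h₁
    exact ⟨j, by rw [cmp_far h₁, one_mul, mul_comm, e]⟩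
  · exact (no_single H T.swap12 h₂ h₁ h₃).elim
  · exact (no_single H T.swap13 h₃ h₂ h₁).elim
  · exact ⟨0, by rw [cmp_far h₁, cmp_far h₂, cmp_far h₃]; simp⟩

end main

end Fermat.Agent.S05.Vieta
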