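import Fermat.Agent.S05.Defs
import Fermat.Agent.S05.CompVieta

/-!
# S05, T3: the component map is additive up to even powers of `v a₄`
-/

set_option autoImplicit false
set_option linter.unusedSectionVars false
set_option linter.unusedVariables false

namespace Fermat.Agent.S05

open WeierstrassCurve Polynomial

variable {K : Type*} [Field K] [DecidableEq K] {W : WeierstrassCurve K} (A : ValuationSubring K)

lemma comp_some_eq_cmp (s : K) {x y : K} (h : W.toAffine.Nonsingular x y) :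
    comp A W s (Affine.Point.some x y h) = Vieta.cmp A.valuation s W.a₄ x y := by
  rfl

/-- the curve equation in the normal form used by `Vieta` -/
lemma IsModel.curve_eq (hW : IsModel W) {s : K} (hs : W.a₂ = s ^ 2) {x y : K}
    (h : W.toAffine.Equation x y) : y ^ 2 = x ^ 3 + s ^ 2 * x ^ 2 + W.a₄ * x := by
  rw [← hs]; exact (hW.equation_iff x y).1 h

/-- the Vieta relations for the chord/tangent through two points -/
lemma IsModel.triple (hW : IsModel W) {s : K} (hs : W.a₂ = s ^ 2) {x₁ y₁ x₂ y₂ : K}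
    (h₁ : W.toAffine.Equation x₁ y₁) (h₂ : W.toAffine.Equation x₂ y₂)
    (hxy : ¬(x₁ = x₂ ∧ y₁ = W.toAffine.negY x₂ y₂)) :
    Vieta.Triple s W.a₄ (W.toAffine.slope x₁ x₂ y₁ y₂)
      (y₁ - W.toAffine.slope x₁ x₂ y₁ y₂ * x₁) x₁ y₁ x₂ y₂
      (W.toAffine.addX x₁ x₂ (W.toAffine.slope x₁ x₂ y₁ y₂))
      (W.toAffine.negAddY x₁ x₂ y₁ (W.toAffine.slope x₁ x₂ y₁ y₂)) := by
  set ℓ := W.toAffine.slope x₁ x₂ y₁ y₂ with hℓ
  have hline₂ : y₂ = ℓ * x₂ + (y₁ - ℓ * x₁) := by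
    by_cases hx : x₁ = x₂
    · have hy : y₁ ≠ W.toAffine.negY x₂ y₂ := fun h => hxy ⟨hx, h⟩
      have := Affine.Y_eq_of_Y_ne h₁ h₂ hx hy
      rw [← hx, ← this]; ring
    · have hx' : x₁ - x₂ ≠ 0 := sub_ne_zero.2 hx
      rw [hℓ, Affine.slope_of_X_ne hx]
      field_simp
      ring
  have hpoly := Affine.addPolynomial_slope h₁ h₂ hxy
  rw [Affine.addPolynomial_eq, neg_inj, Cubic.prod_X_sub_C_eq, Cubic.toPoly_injective] at hpoly
  have hb := congrArg Cubic.b hpoly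
  have hc := congrArg Cubic.c hpoly
  have hd := congrArg Cubic.d hpoly
  simp only [hW.a₁, hW.a₃, hW.a₆] at hb hc hd
  rw [← hℓ] at hb hc hd
  refine ⟨⟨hW.curve_eq hs h₁, by ring⟩, ⟨hW.curve_eq hs h₂, hline₂⟩,
    ⟨hW.curve_eq hs (Affine.equation_negAdd h₁ h₂ hxy), ?_⟩, ?_, ?_, ?_⟩
  · simp only [Affine.negAddY]; ring
  · rw [← hs]; linear_combination hb
  · linear_combination -hc
  · linear_combination hd

theorem comp_add (hW : IsModel W) (htwo : A.valuation (2 : K) = 1) (s : K) (hs : W.a₂ = s ^ 2)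
    (hs1 : A.valuation s = 1) (h40 : W.a₄ ≠ 0) (h4 : A.valuation W.a₄ < 1)
    (P Q : W.toAffine.Point) :
    ∃ j : ℤ, comp A W s (P + Q) = comp A W s P * comp A W s Q * (A.valuation W.a₄) ^ (2 * j) := by
  have H : Vieta.Hyp A.valuation s W.a₄ := ⟨htwo, hs1, h4, h40⟩
  have hh0 : A.valuation W.a₄ ≠ 0 := H.h_ne
  rcases P with _ | ⟨x₁, y₁, h₁⟩
  · exact ⟨0, by
      rw [show (Affine.Point.zero : W.toAffine.Point) = 0 from rfl, zero_add, comp_zero]; simp⟩
  rcases Q with _ | ⟨x₂, y₂, h₂⟩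
  · exact ⟨0, by
      rw [show (Affine.Point.zero : W.toAffine.Point) = 0 from rfl, add_zero, comp_zero]; simp⟩
  by_cases hxy : x₁ = x₂ ∧ y₁ = W.toAffine.negY x₂ y₂
  · obtain ⟨hx, hy⟩ := hxy
    rw [Affine.Point.add_of_Y_eq hx hy, comp_zero, comp_some_eq_cmp, comp_some_eq_cmp]
    subst hx
    rw [hW.negY_eq] at hy
    subst hy
    obtain ⟨j, e⟩ := Vieta.cmp_neg_y H (hW.curve_eq hs h₂.1)
    refine ⟨-j, ?_⟩
    rw [e, mul_neg, zpow_neg]
    have n := Vieta.cmp_ne_zero H (x := x₁) (y := y₂)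
    have n' : A.valuation W.a₄ ^ (2 * j) ≠ 0 := zpow_ne_zero _ hh0
    field_simp
  · rw [Affine.Point.add_some hxy, comp_some_eq_cmp, comp_some_eq_cmp, comp_some_eq_cmp]
    have T := hW.triple hs h₁.1 h₂.1 hxy
    obtain ⟨j, e⟩ := Vieta.cmp_triple H T
    obtain ⟨j', e'⟩ := Vieta.cmp_neg_y H T.p₃.curve
    have hY : W.toAffine.addY x₁ x₂ y₁ (W.toAffine.slope x₁ x₂ y₁ y₂) =
        -W.toAffine.negAddY x₁ x₂ y₁ (W.toAffine.slope x₁ x₂ y₁ y₂) := by
      rw [Affine.addY, hW.negY_eq]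
    rw [hY, e']
    refine ⟨j' - j, ?_⟩
    have n₁ := Vieta.cmp_ne_zero H (x := x₁) (y := y₁)
    have n₂ := Vieta.cmp_ne_zero H (x := x₂) (y := y₂)
    have n₃ := Vieta.cmp_ne_zero H
      (x := W.toAffine.addX x₁ x₂ (W.toAffine.slope x₁ x₂ y₁ y₂))
      (y := W.toAffine.negAddY x₁ x₂ y₁ (W.toAffine.slope x₁ x₂ y₁ y₂))
    have ez : A.valuation W.a₄ ^ (2 * (j' - j)) =
        A.valuation W.a₄ ^ (2 * j') * (A.valuation W.a₄ ^ (2 * j))⁻¹ := by
      rw [← zpow_neg, ← zpow_add₀ hh0]; congr 1; ring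
    rw [ez, ← e]
    field_simp


section corollaries

variable {A} {s : K}

/-- standing hypotheses of T3, bundled -/
structure CompHyp (A : ValuationSubring K) (W : WeierstrassCurve K) (s : K) : Prop where
  model : IsModel W
  two : A.valuation (2 : K) = 1
  sq : W.a₂ = s ^ 2
  s1 : A.valuation s = 1
  a40 : W.a₄ ≠ 0
  a4 : A.valuation W.a₄ < 1

lemma CompHyp.hyp (h : CompHyp A W s) : Vieta.Hyp A.valuation s W.a₄ :=
  ⟨h.two, h.s1, h.a4, h.a40⟩

lemma CompHyp.h_ne (h : CompHyp A W s) : A.valuation W.a₄ ≠ 0 := h.hyp.h_ne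

lemma CompHyp.add (h : CompHyp A W s) (P Q : W.toAffine.Point) :
    ∃ j : ℤ, comp A W s (P + Q) = comp A W s P * comp A W s Q * (A.valuation W.a₄) ^ (2 * j) :=
  comp_add A h.model h.two s h.sq h.s1 h.a40 h.a4 P Q

lemma CompHyp.comp_ne_zero (h : CompHyp A W s) (P : W.toAffine.Point) : comp A W s P ≠ 0 := by
  rcases P with _ | ⟨x, y, hxy⟩
  · exact one_ne_zero
  · rw [comp_some_eq_cmp]; exact Vieta.cmp_ne_zero h.hyp

/-- the component of a multiple -/
lemma CompHyp.nsmul (h : CompHyp A W s) (P : W.toAffine.Point) (n : ℕ) :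
    ∃ j : ℤ, comp A W s (n • P) = comp A W s P ^ n * (A.valuation W.a₄) ^ (2 * j) := by
  induction n with
  | zero => exact ⟨0, by simp⟩
  | succ n ih =>
    obtain ⟨j, e⟩ := ih
    obtain ⟨j', e'⟩ := h.add (n • P) P
    refine ⟨j + j', ?_⟩
    rw [succ_nsmul, e', e, pow_succ, mul_add, zpow_add₀ h.h_ne]
    ac_rfl

/-- the component of a torsion point is torsion modulo `v a₄ ^ 2` -/
lemma CompHyp.torsion (h : CompHyp A W s) {P : W.toAffine.Point} {n : ℕ} (hn : n • P = 0) :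
    ∃ j : ℤ, comp A W s P ^ n = (A.valuation W.a₄) ^ (2 * j) := by
  obtain ⟨j, e⟩ := h.nsmul P n
  rw [hn, comp_zero] at e
  refine ⟨-j, ?_⟩
  rw [mul_neg, zpow_neg]
  exact eq_inv_of_mul_eq_one_left e.symm

/-- a torsion point of odd order does not lie on the middle component -/
lemma CompHyp.not_mid_of_torsion (h : CompHyp A W s) {x y : K}
    (hxy : W.toAffine.Nonsingular x y) {n : ℕ} (hodd : Odd n)
    (hn : n • (Affine.Point.some x y hxy) = 0) : A.valuation W.a₄ < A.valuation x := by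
  by_contra hle
  rw [not_lt] at hle
  obtain ⟨j, e⟩ := h.torsion hn
  rw [comp_some_eq_cmp, Vieta.cmp_mid h.hyp hle, ← zpow_natCast] at e
  have hinj := zpow_right_injective₀ (zero_lt_iff.2 h.h_ne) (ne_of_lt h.a4) e
  obtain ⟨k, hk⟩ := hodd
  omega

/-- for a torsion point of type `±`, a power of `v x` is an even power of `v a₄` -/
lemma CompHyp.v_x_pow_of_torsion (h : CompHyp A W s) {x y : K}
    (hxy : W.toAffine.Nonsingular x y) (hx1 : A.valuation x < 1)
    (hx4 : A.valuation W.a₄ < A.valuation x) {n : ℕ}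
    (hn : n • (Affine.Point.some x y hxy) = 0) :
    ∃ j : ℤ, A.valuation x ^ n = (A.valuation W.a₄) ^ (2 * j) := by
  obtain ⟨j, e⟩ := h.torsion hn
  rw [comp_some_eq_cmp] at e
  have hc := h.model.curve_eq h.sq hxy.1
  rcases Vieta.dich h.hyp hc hx1 hx4 with ⟨hs, -⟩ | ⟨hs, -⟩
  · rw [Vieta.cmp_plus hx1 hx4 hs] at e
    exact ⟨j, e⟩
  · rw [Vieta.cmp_minus h.hyp hc hx1 hx4 hs, inv_pow] at e
    refine ⟨-j, ?_⟩
    rw [mul_neg, zpow_neg, ← e, inv_inv]


/-- strict antitonicity of `j ↦ h ^ j` for `0 < h < 1`, in the form of a reflection -/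
lemma lt_of_zpow_lt_zpow {Γ₀ : Type*} [LinearOrderedCommGroupWithZero Γ₀] {h : Γ₀}
    (h0 : 0 < h) (h1 : h < 1) {m n : ℤ} (hmn : h ^ n < h ^ m) : m < n := by
  by_contra hle
  rw [not_lt] at hle
  rcases lt_or_eq_of_le hle with hlt | heq
  · exact absurd hmn (not_lt.2 (zpow_lt_zpow_right_of_lt_one₀ h0 h1 hlt).le)
  · rw [heq] at hmn; exact lt_irrefl _ hmn

/-- a point whose component is an even power of `v a₄` has type `0` -/
lemma CompHyp.far_of_comp_eq (h : CompHyp A W s) {x y : K}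
    (hxy : W.toAffine.Nonsingular x y) {j : ℤ}
    (e : comp A W s (Affine.Point.some x y hxy) = (A.valuation W.a₄) ^ (2 * j)) :
    1 ≤ A.valuation x := by
  have h0 : 0 < A.valuation W.a₄ := zero_lt_iff.2 h.h_ne
  have h1 := h.a4
  by_contra hx
  rw [not_le] at hx
  rw [comp_some_eq_cmp] at e
  have hc := h.model.curve_eq h.sq hxy.1
  rcases le_or_gt (A.valuation x) (A.valuation W.a₄) with mx | kx
  · rw [Vieta.cmp_mid h.hyp mx] at e
    have := zpow_right_injective₀ h0 (ne_of_lt h1) ((zpow_one _).trans e)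
    omega
  · rcases Vieta.dich h.hyp hc hx kx with ⟨hs, -⟩ | ⟨hs, -⟩
    · rw [Vieta.cmp_plus hx kx hs] at e
      rw [e] at hx kx
      have a := lt_of_zpow_lt_zpow h0 h1 (m := 0) (n := 2 * j) (by rw [zpow_zero]; exact hx)
      have b := lt_of_zpow_lt_zpow h0 h1 (m := 2 * j) (n := 1) (by rw [zpow_one]; exact kx)
      omega
    · rw [Vieta.cmp_minus h.hyp hc hx kx hs] at e
      have e2 : A.valuation x = (A.valuation W.a₄) ^ (-(2 * j)) := by
        rw [zpow_neg, ← e, inv_inv]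
      rw [e2] at hx kx
      have a := lt_of_zpow_lt_zpow h0 h1 (m := 0) (n := -(2 * j)) (by rw [zpow_zero]; exact hx)
      have b := lt_of_zpow_lt_zpow h0 h1 (m := -(2 * j)) (n := 1) (by rw [zpow_one]; exact kx)
      omega

/-- negation inverts the component up to even powers of `v a₄` -/
lemma CompHyp.neg (h : CompHyp A W s) (P : W.toAffine.Point) :
    ∃ j : ℤ, comp A W s (-P) = (comp A W s P)⁻¹ * (A.valuation W.a₄) ^ (2 * j) := by
  obtain ⟨j, e⟩ := h.add P (-P)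
  rw [add_neg_cancel, comp_zero] at e
  refine ⟨-j, ?_⟩
  have n₁ := h.comp_ne_zero P
  have n₂ : A.valuation W.a₄ ^ (2 * j) ≠ 0 := zpow_ne_zero _ h.h_ne
  rw [mul_neg, zpow_neg]
  have : comp A W s (-P) * (comp A W s P * A.valuation W.a₄ ^ (2 * j)) = 1 := by
    rw [e]; ac_rfl
  field_simp
  rw [mul_comm] at this
  rw [← this]; ac_rfl

/-- two points with the same component (up to even powers of `v a₄`) differ by a point of
type `0` -/
lemma CompHyp.sub_far (h : CompHyp A W s) {P Q : W.toAffine.Point} {j : ℤ}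
    (e : comp A W s P = comp A W s Q * (A.valuation W.a₄) ^ (2 * j)) :
    ∃ j' : ℤ, comp A W s (P - Q) = (A.valuation W.a₄) ^ (2 * j') := by
  obtain ⟨j₁, e₁⟩ := h.add P (-Q)
  obtain ⟨j₂, e₂⟩ := h.neg Q
  refine ⟨j + j₂ + j₁, ?_⟩
  have n := h.comp_ne_zero Q
  rw [sub_eq_add_neg, e₁, e₂, e, mul_add, mul_add, zpow_add₀ h.h_ne, zpow_add₀ h.h_ne]
  field_simp

end corollaries

end Fermat.Agent.S05
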