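import Fermat.Agent.S05.Defs

/-!
# S05, T2: congruent integral points with unit abscissa differ by an element of `E₁`
-/

set_option autoImplicit false
set_option linter.unusedSectionVars false

namespace Fermat.Agent.S05

open WeierstrassCurve

variable {K : Type*} [Field K] [DecidableEq K] {W : WeierstrassCurve K} (A : ValuationSubring K)

private lemma congr_not_mem_of_one_lt {x : K} (h : 1 < A.valuation x) : x ∉ A :=
  fun hx => absurd ((A.valuation_le_one_iff x).2 hx) (not_le.2 h)

private lemma congr_val_one_add {a b : K} (ha : A.valuation a = 1) (hb : A.valuation b < 1) :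
    A.valuation (a + b) = 1 := by
  rw [Valuation.map_add_eq_of_lt_left _ (by rw [ha]; exact hb), ha]

private lemma congr_mem_of_sq {y : K} (h : y ^ 2 ∈ A) : y ∈ A := by
  rw [← A.valuation_le_one_iff] at h ⊢
  rw [map_pow] at h
  by_contra hy
  push Not at hy
  have : 1 < A.valuation y ^ 2 := one_lt_pow₀ hy (by norm_num)
  exact absurd h (not_le.2 this)

/-- If `y` is a non-unit then `x² - a₄` is a unit (because `a₂² - 4a₄` is). -/
private lemma congr_val_G (hW : IsModel W) (h2 : W.a₂ ∈ A) (h4 : W.a₄ ∈ A)
    (hd : A.valuation (W.a₂ ^ 2 - 4 * W.a₄) = 1) (htwo : A.valuation (2 : K) = 1)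
    {x y : K} (h : W.toAffine.Nonsingular x y) (hx : A.valuation x = 1)
    (hy : A.valuation y < 1) : A.valuation (x ^ 2 - W.a₄) = 1 := by
  have e := hW.eq_of_nonsingular h
  have hxA : x ∈ A := (A.valuation_le_one_iff _).1 hx.le
  have hx0 : x ≠ 0 := by
    rw [← Valuation.ne_zero_iff A.valuation, hx]; exact one_ne_zero
  have hGA : A.valuation (x ^ 2 - W.a₄) ≤ 1 :=
    (A.valuation_le_one_iff _).2 (sub_mem (pow_mem hxA 2) h4)
  rcases lt_or_eq_of_le hGA with hG | hG
  · exfalso
    -- `F = x² + a₂ x + a₄ = y² / x` is a non-unit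
    have hF : A.valuation (x ^ 2 + W.a₂ * x + W.a₄) < 1 := by
      have : x ^ 2 + W.a₂ * x + W.a₄ = y ^ 2 / x := by
        field_simp; linear_combination -e
      rw [this, map_div₀, hx, div_one, map_pow]
      exact pow_lt_one₀ zero_le hy (by norm_num)
    have h4' : A.valuation (4 : K) = 1 := by
      have : (4 : K) = 2 * 2 := by norm_num
      rw [this, map_mul, htwo, one_mul]
    have hsum : A.valuation ((x ^ 2 + W.a₂ * x + W.a₄) + (x ^ 2 - W.a₄)) < 1 :=
      Valuation.map_add_lt _ hF hG
    have key : W.a₂ ^ 2 - 4 * W.a₄ =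
        (((x ^ 2 + W.a₂ * x + W.a₄) + (x ^ 2 - W.a₄)) / x) ^ 2 -
          4 * (x ^ 2 + W.a₂ * x + W.a₄) := by
      field_simp; ring
    have : A.valuation (W.a₂ ^ 2 - 4 * W.a₄) < 1 := by
      rw [key]
      apply Valuation.map_sub_lt
      · rw [map_pow, map_div₀, hx, div_one]
        exact pow_lt_one₀ zero_le hsum (by norm_num)
      · rw [map_mul, h4', one_mul]; exact hF
    rw [hd] at this
    exact lt_irrefl _ this
  · exact hG

/-- **T2.** -/
theorem InE1_sub_of_congr (hW : IsModel W) (h2 : W.a₂ ∈ A) (h4 : W.a₄ ∈ A)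
    (hd : A.valuation (W.a₂ ^ 2 - 4 * W.a₄) = 1) (htwo : A.valuation (2 : K) = 1)
    {x y x' y' : K} (h : W.toAffine.Nonsingular x y) (h' : W.toAffine.Nonsingular x' y')
    (hx : A.valuation x = 1) (hxx : x - x' ∈ A.nonunits) (hyy : y - y' ∈ A.nonunits) :
    InE1 A (Affine.Point.some x y h - Affine.Point.some x' y' h') := by
  rw [ValuationSubring.mem_nonunits_iff] at hxx hyy
  have e := hW.eq_of_nonsingular h
  have e' := hW.eq_of_nonsingular h'
  have hxA : x ∈ A := (A.valuation_le_one_iff _).1 hx.le
  have hx0 : x ≠ 0 := by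
    rw [← Valuation.ne_zero_iff A.valuation, hx]; exact one_ne_zero
  have hx' : A.valuation x' = 1 := by
    have : x' = x + -(x - x') := by ring
    rw [this]
    exact congr_val_one_add A hx (by rwa [Valuation.map_neg])
  have hx'A : x' ∈ A := (A.valuation_le_one_iff _).1 hx'.le
  have hx'0 : x' ≠ 0 := by
    rw [← Valuation.ne_zero_iff A.valuation, hx']; exact one_ne_zero
  have hyA : y ∈ A := by
    apply congr_mem_of_sq A
    rw [e]
    exact A.add_mem _ _ (A.add_mem _ _ (pow_mem hxA 3) (A.mul_mem _ _ h2 (pow_mem hxA 2)))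
      (A.mul_mem _ _ h4 hxA)
  have hyv : A.valuation y ≤ 1 := (A.valuation_le_one_iff _).2 hyA
  obtain ⟨hn, en⟩ := hW.neg_some h'
  rw [sub_eq_add_neg, en]
  by_cases hy1 : A.valuation y = 1
  · -- `y` is a unit
    by_cases hxe : x = x'
    · subst hxe
      have hyy' : y' = y := by
        have h0 : (y' - y) * (y' + y) = 0 := by linear_combination e' - e
        rcases mul_eq_zero.1 h0 with h1 | h1
        · exact sub_eq_zero.1 h1
        · exfalso
          have : y - y' = 2 * y := by linear_combination -h1
          rw [this, map_mul, htwo, hy1, one_mul] at hyy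
          exact lt_irrefl _ hyy
      subst hyy'
      rw [Affine.Point.add_of_Y_eq rfl (by rw [hW.negY_eq, neg_neg])]
      trivial
    · obtain ⟨hS, eS⟩ := hW.add_eq_I h hn hx0 hx'0 hxe
      rw [eS]
      show sumX x x' (betaI x y x' (-y')) ∉ A
      apply congr_not_mem_of_one_lt
      have hd0 : x - x' ≠ 0 := sub_ne_zero.2 hxe
      have hvd0 : 0 < A.valuation (x - x') :=
        lt_of_le_of_ne zero_le ((Valuation.ne_zero_iff _).2 hd0).symm
      have hnum : A.valuation (x * -y' - x' * y) = 1 := by
        have : x * -y' - x' * y = -(2 * x * y) + (x * (y - y') + y * (x - x')) := by ring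
        rw [this]
        apply congr_val_one_add A
        · rw [Valuation.map_neg, map_mul, map_mul, htwo, hx, hy1, one_mul, one_mul]
        · apply Valuation.map_add_lt
          · rw [map_mul, hx, one_mul]; exact hyy
          · rw [map_mul, hy1, one_mul]; exact hxx
      rw [sumX, betaI, map_div₀, map_pow, map_div₀, hnum, map_mul, hx, hx', one_mul, div_one,
        one_div, inv_pow]
      exact (one_lt_inv₀ (pow_pos hvd0 2)).2 (pow_lt_one₀ zero_le hxx (by norm_num))
  · -- `y` is a non-unit
    have hylt : A.valuation y < 1 := lt_of_le_of_ne hyv hy1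
    have hy'lt : A.valuation y' < 1 := by
      have : y' = y - (y - y') := by ring
      rw [this]
      exact Valuation.map_sub_lt _ hylt hyy
    have hG := congr_val_G A hW h2 h4 hd htwo h hx hylt
    have hG' : A.valuation (x * x' - W.a₄) = 1 := by
      have : x * x' - W.a₄ = (x ^ 2 - W.a₄) + -(x * (x - x')) := by ring
      rw [this]
      apply congr_val_one_add A hG
      rw [Valuation.map_neg, map_mul, hx, one_mul]; exact hxx
    have hG'0 : x * x' - W.a₄ ≠ 0 := by
      rw [← Valuation.ne_zero_iff A.valuation, hG']; exact one_ne_zero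
    by_cases hμ : y * x' + -y' * x = 0
    · -- then the two points coincide
      have hch := hW.chord_identity h hn
      rw [hμ, mul_zero] at hch
      have hxe : x = x' := by
        have h0 : (x * x' - W.a₄) * (x * x') * (x - x') = 0 := by linear_combination hch
        rcases mul_eq_zero.1 h0 with h1 | h1
        · exact absurd h1 (mul_ne_zero hG'0 (mul_ne_zero hx0 hx'0))
        · exact sub_eq_zero.1 h1
      subst hxe
      have hyy' : y' = y := by
        have h0 : x * (y - y') = 0 := by linear_combination hμ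
        rcases mul_eq_zero.1 h0 with h1 | h1
        · exact absurd h1 hx0
        · exact (sub_eq_zero.1 h1).symm
      subst hyy'
      rw [Affine.Point.add_of_Y_eq rfl (by rw [hW.negY_eq, neg_neg])]
      trivial
    · obtain ⟨hS, eS⟩ := hW.add_eq_II h hn hx0 hx'0 hμ
      rw [eS]
      show sumX x x' (betaII W x y x' (-y')) ∉ A
      apply congr_not_mem_of_one_lt
      have hvden : A.valuation (y * x' + -y' * x) < 1 := by
        apply Valuation.map_add_lt
        · rw [map_mul, hx', mul_one]; exact hylt
        · rw [map_mul, Valuation.map_neg, hx, mul_one]; exact hy'lt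
      have hvd0 : 0 < A.valuation (y * x' + -y' * x) :=
        lt_of_le_of_ne zero_le ((Valuation.ne_zero_iff _).2 hμ).symm
      rw [sumX, betaII, map_div₀, map_pow, map_div₀, Valuation.map_neg, map_mul, hG', map_mul,
        hx, hx', one_mul, one_mul, div_one, one_div, inv_pow]
      exact (one_lt_inv₀ (pow_pos hvd0 2)).2 (pow_lt_one₀ zero_le hvden (by norm_num))

end Fermat.Agent.S05
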