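import Mathlib
import Fermat.Prelude.Def_FLTPrelim_FreyPackage
import Fermat.Prelude.Def_FLTPrelim_Ramification

/-!
# S05: arithmetic at the prime `q`

Integers prime to `q` are units of any valuation subring lying over `q`; divisibility facts for
a Frey package.
-/

set_option autoImplicit false
set_option linter.unusedSectionVars false

namespace Fermat.Agent.S05

section Val

variable {K : Type*} [Field K] (A : ValuationSubring K)

lemma val_intCast_le_one (n : ℤ) : A.valuation (n : K) ≤ 1 :=
  (A.valuation_le_one_iff _).2 (intCast_mem A n)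

/-- An integer prime to `q` is a unit of a valuation subring lying over `q`. -/
lemma val_intCast_eq_one {q : ℕ} (hq : q.Prime) (hA : A.LiesOverPrime q) {n : ℤ}
    (hn : ¬ (q : ℤ) ∣ n) : A.valuation (n : K) = 1 := by
  have hqv : A.valuation ((q : ℤ) : K) < 1 := by
    have : A.valuation (q : K) < 1 := (A.mem_nonunits_iff).1 hA
    simpa using this
  have hcop : IsCoprime n (q : ℤ) := by
    have hp : Prime (q : ℤ) := Nat.prime_iff_prime_int.1 hq
    exact ((Prime.coprime_iff_not_dvd hp).2 hn).symm
  obtain ⟨s, t, hst⟩ := hcop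
  have hst' : (s : K) * (n : K) + (t : K) * ((q : ℤ) : K) = 1 := by
    have := congrArg (fun z : ℤ => (z : K)) hst
    simpa using this
  rcases lt_or_eq_of_le (val_intCast_le_one A n) with h | h
  · exfalso
    have h1 : A.valuation ((s : K) * (n : K)) < 1 := by
      rw [map_mul]
      exact lt_of_le_of_lt (mul_le_of_le_one_left zero_le (val_intCast_le_one A s)) h
    have h2 : A.valuation ((t : K) * ((q : ℤ) : K)) < 1 := by
      rw [map_mul]
      exact lt_of_le_of_lt (mul_le_of_le_one_left zero_le (val_intCast_le_one A t)) hqv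
    have := Valuation.map_add_lt _ h1 h2
    rw [hst', Valuation.map_one] at this
    exact lt_irrefl _ this
  · exact h

lemma val_natCast_eq_one {q : ℕ} (hq : q.Prime) (hA : A.LiesOverPrime q) {n : ℕ}
    (hn : ¬ q ∣ n) : A.valuation (n : K) = 1 := by
  have := val_intCast_eq_one A hq hA (n := (n : ℤ)) (by exact_mod_cast hn)
  simpa using this

end Val

section Frey

variable (P : FreyPackage)

lemma FreyPackage_not_dvd_b_of_dvd_c {q : ℕ} (hq : q.Prime) (h : (q : ℤ) ∣ P.c) : ¬ (q : ℤ) ∣ P.b := by
  intro hb
  have hp : Prime (q : ℤ) := Nat.prime_iff_prime_int.1 hq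
  have h1 : (q : ℤ) ∣ gcd P.b P.c := dvd_gcd hb h
  rw [P.hgcdbc] at h1
  exact hp.not_dvd_one h1

end Frey

end Fermat.Agent.S05
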