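import Fermat.Agent.S05.ModelThm
import Fermat.Agent.S05.Arith

/-!
# S05: the Frey curve, assuming the three interfaces T1, T2, T3
-/

set_option autoImplicit false
set_option linter.unusedSectionVars false

namespace Fermat.Agent.S05

open WeierstrassCurve WeierstrassCurve.Affine.Point

local notation "Qb" => AlgebraicClosure ℚ

/-- The three interface statements (T1, T2, T3) over `ℚ̄`. -/
structure Interfaces : Prop where
  kernel : ∀ (A : ValuationSubring Qb) (W : WeierstrassCurve Qb), IsModel W → W.a₂ ∈ A →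
    W.a₄ ∈ A → KernelProps A W
  congr : ∀ (A : ValuationSubring Qb) (W : WeierstrassCurve Qb), IsModel W → W.a₂ ∈ A →
    W.a₄ ∈ A → A.valuation (W.a₂ ^ 2 - 4 * W.a₄) = 1 → A.valuation (2 : Qb) = 1 →
    CongrProp A W
  comp : ∀ (A : ValuationSubring Qb) (W : WeierstrassCurve Qb) (s : Qb), IsModel W →
    A.valuation (2 : Qb) = 1 → W.a₂ = s ^ 2 → A.valuation s = 1 → W.a₄ ≠ 0 →
    A.valuation W.a₄ < 1 → CompProp A W s

/-- The model of the Frey curve attached to a root `r` of `X³ + (B-A)X² - ABX`. -/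
def freyModel (P : FreyPackage) (r : ℤ) : WeierstrassCurve ℚ where
  a₁ := 0
  a₂ := ((3 * r + (P.b ^ P.p - P.a ^ P.p) : ℤ) : ℚ)
  a₃ := 0
  a₄ := ((3 * r ^ 2 + 2 * r * (P.b ^ P.p - P.a ^ P.p) - P.a ^ P.p * P.b ^ P.p : ℤ) : ℚ)
  a₆ := 0

theorem frey_core (I : Interfaces) (P : FreyPackage) {q : ℕ} (hq : q.Prime) (hq2 : q ≠ 2)
    (hqp : q ≠ P.p) (r ρ ε : ℤ)
    (hr : r ^ 3 + (P.b ^ P.p - P.a ^ P.p) * r ^ 2 - P.a ^ P.p * P.b ^ P.p * r = 0)
    (hfac : 3 * r ^ 2 + 2 * r * (P.b ^ P.p - P.a ^ P.p) - P.a ^ P.p * P.b ^ P.p = ε * ρ ^ P.p)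
    (hε : ¬ (q : ℤ) ∣ ε) (hρ0 : ρ ≠ 0)
    (hdisc : ¬ (q : ℤ) ∣ (3 * r + (P.b ^ P.p - P.a ^ P.p)) ^ 2 -
      4 * (3 * r ^ 2 + 2 * r * (P.b ^ P.p - P.a ^ P.p) - P.a ^ P.p * P.b ^ P.p)) :
    P.GaloisRepUnramifiedAt q := by
  intro A hA σ hσ x
  have hq2' : ¬ q ∣ 2 := fun h => hq2 ((Nat.prime_dvd_prime_iff_eq hq Nat.prime_two).1 h)
  have hqp' : ¬ q ∣ P.p := fun h => hqp ((Nat.prime_dvd_prime_iff_eq hq P.pp).1 h)
  have h2 : A.valuation (2 : Qb) = 1 := by
    have := val_natCast_eq_one A hq hA hq2'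
    simpa using this
  have hp : A.valuation (P.p : Qb) = 1 := val_natCast_eq_one A hq hA hqp'
  have hε0 : ε ≠ 0 := by rintro rfl; exact hε (dvd_zero _)
  have hd0 : (3 * r + (P.b ^ P.p - P.a ^ P.p)) ^ 2 -
      4 * (3 * r ^ 2 + 2 * r * (P.b ^ P.p - P.a ^ P.p) - P.a ^ P.p * P.b ^ P.p) ≠ 0 := by
    intro h0; rw [h0] at hdisc; exact hdisc (dvd_zero _)
  -- the model over `ℚ` and its coefficients over `ℚ̄`
  have hmodel : IsModel ((freyModel P r)⁄Qb) :=
    ⟨by simp [WeierstrassCurve.baseChange, freyModel],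
     by simp [WeierstrassCurve.baseChange, freyModel],
     by simp [WeierstrassCurve.baseChange, freyModel]⟩
  have ea₂ : ((freyModel P r)⁄Qb).a₂ = ((3 * r + (P.b ^ P.p - P.a ^ P.p) : ℤ) : Qb) := by
    simp [WeierstrassCurve.baseChange, freyModel]
  have ea₄' : ((freyModel P r)⁄Qb).a₄ =
      ((3 * r ^ 2 + 2 * r * (P.b ^ P.p - P.a ^ P.p) - P.a ^ P.p * P.b ^ P.p : ℤ) : Qb) := by
    simp [WeierstrassCurve.baseChange, freyModel]
  have ea₄ : ((freyModel P r)⁄Qb).a₄ = ((ε * ρ ^ P.p : ℤ) : Qb) := by rw [ea₄', hfac]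
  have ha₂ : ((freyModel P r)⁄Qb).a₂ ∈ A := by rw [ea₂]; exact intCast_mem A _
  have hva₄ : A.valuation ((freyModel P r)⁄Qb).a₄ = A.valuation ((ρ : ℤ) : Qb) ^ P.p := by
    rw [ea₄, Int.cast_mul, Int.cast_pow, map_mul, map_pow, val_intCast_eq_one A hq hA hε, one_mul]
  have hd : A.valuation (((freyModel P r)⁄Qb).a₂ ^ 2 - 4 * ((freyModel P r)⁄Qb).a₄) = 1 := by
    rw [ea₂, ea₄']
    have := val_intCast_eq_one A hq hA hdisc
    rw [← this]
    congr 1
    push_cast
    ring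
  have hρK : ((ρ : ℤ) : Qb) ≠ 0 := by exact_mod_cast hρ0
  have ha₄ : ((freyModel P r)⁄Qb).a₄ ∈ A := by rw [ea₄]; exact intCast_mem A _
  have h4 : ((freyModel P r)⁄Qb).a₄ ≠ 0 := by
    rw [ea₄]; exact_mod_cast mul_ne_zero hε0 (pow_ne_zero _ hρ0)
  have hΔ : ((freyModel P r)⁄Qb).Δ ≠ 0 := by
    rw [hmodel.Δ_eq]
    refine mul_ne_zero (mul_ne_zero (by norm_num) (pow_ne_zero _ h4)) ?_
    rw [ea₂, ea₄']
    exact_mod_cast hd0
  -- the transfer
  have hT : IsTransfer (P.freyCurve⁄Qb) ((freyModel P r)⁄Qb) (algebraMap ℚ Qb (r : ℚ)) :=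
    { E_a₁ := by simp [WeierstrassCurve.baseChange, FreyPackage.freyCurve]
      E_a₃ := by simp [WeierstrassCurve.baseChange, FreyPackage.freyCurve]
      E_a₆ := by simp [WeierstrassCurve.baseChange, FreyPackage.freyCurve]
      W_model := hmodel
      W_a₂ := by
        rw [ea₂]
        simp only [WeierstrassCurve.baseChange, WeierstrassCurve.map_a₂, FreyPackage.freyCurve]
        simp only [map_div₀, map_sub, map_pow, map_intCast, map_one, map_ofNat, eq_intCast]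
        push_cast
        field_simp
        ring
      W_a₄ := by
        rw [ea₄']
        simp only [WeierstrassCurve.baseChange, WeierstrassCurve.map_a₂, WeierstrassCurve.map_a₄,
          FreyPackage.freyCurve]
        simp only [map_div₀, map_sub, map_mul, map_neg, map_pow, map_intCast, map_one, map_ofNat,
          eq_intCast]
        push_cast
        field_simp
        ring
      hr := by
        simp only [WeierstrassCurve.baseChange, WeierstrassCurve.map_a₂, WeierstrassCurve.map_a₄,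
          FreyPackage.freyCurve]
        simp only [map_div₀, map_sub, map_mul, map_neg, map_pow, map_intCast, map_one, map_ofNat,
          eq_intCast]
        have := congrArg (Int.cast (R := Qb)) hr
        push_cast at this
        field_simp
        linear_combination this
      hΔ := hΔ
      h2 := by norm_num }
  -- the torsion point and its image on the model
  have hx : (P.p : ℤ) • x.1 = 0 := by
    have := x.2
    rwa [Submodule.mem_torsionBy_iff] at this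
  have hxn : P.p • x.1 = 0 := by
    rwa [natCast_zsmul] at hx
  have hQ : P.p • transfer hT x.1 = 0 := by
    have e : P.p • transfer hT x.1 = transfer hT (P.p • x.1) :=
      (map_nsmul (transferHom hT) P.p x.1).symm
    rw [e, hxn]
    rfl
  have hσρ : σ ((ρ : ℤ) : Qb) = ((ρ : ℤ) : Qb) := map_intCast σ ρ
  have hsq : ∀ m : Qb, ∃ μ : Qb, μ ^ 2 = m :=
    fun m => IsAlgClosed.exists_pow_nat_eq m (by norm_num)
  have key := model_inertia_trivial A hσ hmodel (I.kernel A _ hmodel ha₂ ha₄)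
    (I.congr A _ hmodel ha₂ ha₄ hd h2)
    (fun s hs hs1 hv4 => I.comp A _ s hmodel h2 hs hs1 h4 hv4) hsq h2 ha₂ hd P.p hp
    ((ρ : ℤ) : Qb) hσρ (intCast_mem A ρ) hρK hva₄
    (transfer hT x.1) hQ
  have e := transfer_smul hT σ x.1
  exact Subtype.ext (transfer_injective hT (e.trans key))

/-- **S05 modulo the interfaces**: the Frey representation is unramified at odd `q ≠ p`. -/
theorem frey_unramified (I : Interfaces) (P : FreyPackage) {q : ℕ} (hq : q.Prime) (hq2 : q ≠ 2)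
    (hqp : q ≠ P.p) : P.GaloisRepUnramifiedAt q := by
  have hqZ : Prime (q : ℤ) := Nat.prime_iff_prime_int.1 hq
  have hpp := P.hp0
  by_cases hc : (q : ℤ) ∣ P.c
  · -- `q ∣ c`: shift by `r = a^p`
    have hb : ¬ (q : ℤ) ∣ P.b := FreyPackage_not_dvd_b_of_dvd_c P hq hc
    have hF := P.hFLT
    refine frey_core I P hq hq2 hqp (P.a ^ P.p) (P.a * P.c) 1 (by ring) ?_ ?_
      (mul_ne_zero P.ha0 P.hc0) ?_
    · rw [mul_pow, ← hF]; ring
    · exact fun h => hqZ.not_dvd_one h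
    · have e : (3 * P.a ^ P.p + (P.b ^ P.p - P.a ^ P.p)) ^ 2 -
          4 * (3 * (P.a ^ P.p) ^ 2 + 2 * P.a ^ P.p * (P.b ^ P.p - P.a ^ P.p) -
            P.a ^ P.p * P.b ^ P.p) = (P.b ^ P.p) ^ 2 := by ring
      rw [e]
      exact fun h => hb (hqZ.dvd_of_dvd_pow (hqZ.dvd_of_dvd_pow h))
  · -- `q ∤ c`: no shift
    have hF := P.hFLT
    refine frey_core I P hq hq2 hqp 0 (P.a * P.b) (-1) (by ring) ?_ ?_
      (mul_ne_zero P.ha0 P.hb0) ?_
    · rw [mul_pow]; ring
    · rw [Int.dvd_neg]; exact fun h => hqZ.not_dvd_one h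
    · have e : (3 * 0 + (P.b ^ P.p - P.a ^ P.p)) ^ 2 -
          4 * (3 * (0 : ℤ) ^ 2 + 2 * 0 * (P.b ^ P.p - P.a ^ P.p) -
            P.a ^ P.p * P.b ^ P.p) = (P.c ^ P.p) ^ 2 := by rw [← hF]; ring
      rw [e]
      exact fun h => hc (hqZ.dvd_of_dvd_pow (hqZ.dvd_of_dvd_pow h))

end Fermat.Agent.S05
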