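import Fermat.Agent.S05.Defs

/-!
# S05, T1: the kernel of reduction `E₁` on the model curve `Y² = X³ + a₂X² + a₄X`

`E₁ = {0} ∪ {(x,y) : x ∉ A}` is closed under negation and addition, the formal parameter
`z = x / y` satisfies `z(P+Q) = (z P + z Q)(1 + z P · z Q · b)` with `b ∈ A`, and `E₁` has no
`n`-torsion for `n` a unit of `A`.
-/

set_option autoImplicit false
set_option linter.unusedSectionVars false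
set_option linter.unusedVariables false

namespace Fermat.Agent.S05

open WeierstrassCurve

section CoreAlgebra

variable {K : Type*} [Field K]

/-- core algebra: the `x`-coordinate of the sum (Form II), in terms of `u = 1/x`, `z = x/y`. -/
lemma kernel_core_sumX (a₂ a₄ x₁ y₁ x₂ y₂ N M : K)
    (e₁ : y₁ ^ 2 = x₁ ^ 3 + a₂ * x₁ ^ 2 + a₄ * x₁)
    (e₂ : y₂ ^ 2 = x₂ ^ 3 + a₂ * x₂ ^ 2 + a₄ * x₂)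
    (hx₁ : x₁ ≠ 0) (hx₂ : x₂ ≠ 0) (hy₁ : y₁ ≠ 0) (hy₂ : y₂ ≠ 0)
    (hN : N ≠ 0) (hM : M ≠ 0) (hMd : M = x₁ * x₂ - a₄) :
    sumX x₁ x₂ (-(M * (x₁ * x₂)) / N) *
      ((1 + a₂ * x₁⁻¹ + a₄ * x₁⁻¹ ^ 2) * (1 + a₂ * x₂⁻¹ + a₄ * x₂⁻¹ ^ 2) *
        (N / (y₁ * y₂)) ^ 2) =
      (1 - a₄ * x₁⁻¹ * x₂⁻¹) ^ 2 := by
  rw [sumX]
  field_simp
  linear_combination (2 * a₄ * x₁ * x₂ * y₂ ^ 2 - a₄ ^ 2 * y₂ ^ 2 - x₁ ^ 2 * x₂ ^ 2 * y₂ ^ 2) * e₁ +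
    (2 * a₂ * a₄ * x₁ ^ 3 * x₂ - a₂ * a₄ ^ 2 * x₁ ^ 2 - a₂ * x₁ ^ 4 * x₂ ^ 2 - a₄ * x₁ ^ 3 * x₂ ^ 2 + 2 * a₄ * x₁ ^ 4 * x₂ + 2 * a₄ ^ 2 * x₁ ^ 2 * x₂ - a₄ ^ 2 * x₁ ^ 3 - a₄ ^ 3 * x₁ - x₁ ^ 5 * x₂ ^ 2) * e₂ +
    (M * a₂ * a₄ * x₁ * x₂ ^ 2 + M * a₂ * a₄ * x₁ ^ 2 * x₂ + M * a₂ * x₁ ^ 2 * x₂ ^ 3 + M * a₂ * x₁ ^ 3 * x₂ ^ 2 + M * a₂ ^ 2 * x₁ ^ 2 * x₂ ^ 2 + M * a₄ * x₁ * x₂ ^ 3 + M * a₄ * x₁ ^ 3 * x₂ + M * a₄ ^ 2 * x₁ * x₂ + M * x₁ ^ 3 * x₂ ^ 3 - a₂ * a₄ ^ 2 * x₁ * x₂ ^ 2 - a₂ * a₄ ^ 2 * x₁ ^ 2 * x₂ + a₂ * x₁ ^ 3 * x₂ ^ 4 + a₂ * x₁ ^ 4 * x₂ ^ 3 - a₂ ^ 2 * a₄ * x₁ ^ 2 * x₂ ^ 2 + a₂ ^ 2 * x₁ ^ 3 * x₂ ^ 3 + a₄ * x₁ ^ 2 * x₂ ^ 4 - a₄ * x₁ ^ 3 * x₂ ^ 3 + a₄ * x₁ ^ 4 * x₂ ^ 2 - a₄ ^ 2 * x₁ * x₂ ^ 3 + a₄ ^ 2 * x₁ ^ 2 * x₂ ^ 2 - a₄ ^ 2 * x₁ ^ 3 * x₂ - a₄ ^ 3 * x₁ * x₂ + x₁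 ^ 4 * x₂ ^ 4) * hMd

/-- core algebra: the formal parameter of the sum (Form II). -/
lemma kernel_core_z (a₂ a₄ x₁ y₁ x₂ y₂ N M : K)
    (e₁ : y₁ ^ 2 = x₁ ^ 3 + a₂ * x₁ ^ 2 + a₄ * x₁)
    (e₂ : y₂ ^ 2 = x₂ ^ 3 + a₂ * x₂ ^ 2 + a₄ * x₂)
    (hx₁ : x₁ ≠ 0) (hx₂ : x₂ ≠ 0) (hy₁ : y₁ ≠ 0) (hy₂ : y₂ ≠ 0)
    (hN : N ≠ 0) (hNd : N = y₁ * x₂ + y₂ * x₁) (hM : M ≠ 0) (hMd : M = x₁ * x₂ - a₄) :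
    sumX x₁ x₂ (-(M * (x₁ * x₂)) / N) *
      (1 + x₁ / y₁ * (x₂ / y₂) * (a₂ + a₄ * x₂⁻¹ + 2 * a₄ * x₁⁻¹ - a₄ ^ 2 * x₁⁻¹ ^ 2 * x₂⁻¹ +
        (N / (y₁ * y₂)) * (x₂ / y₂) * a₄ * (1 + a₂ * x₁⁻¹ + a₄ * x₁⁻¹ ^ 2) *
          (1 + a₂ * x₂⁻¹ + a₄ * x₂⁻¹ ^ 2))) =
      (1 - a₄ * x₁⁻¹ * x₂⁻¹) * (N / (y₁ * y₂)) *
        sumY x₁ y₁ x₂ (-(M * (x₁ * x₂)) / N) := by
  rw [sumY, sumX]
  field_simp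
  linear_combination (-M * N * a₄ * y₂ ^ 2 + M * N * x₁ * x₂ * y₂ ^ 2 + M * x₁ ^ 2 * x₂ * y₂ ^ 3 + N * a₂ * a₄ * x₁ * x₂ ^ 3 - N * a₂ * x₁ ^ 2 * x₂ ^ 4 + N * a₄ * x₁ * x₂ ^ 4 - N * a₄ * x₁ ^ 2 * x₂ ^ 3 + N * a₄ ^ 2 * x₁ * x₂ ^ 2 - N * x₁ ^ 2 * x₂ ^ 5 + a₂ * a₄ * x₁ ^ 2 * x₂ ^ 3 * y₂ - a₂ * x₁ ^ 3 * x₂ ^ 4 * y₂ + a₄ * x₁ ^ 2 * x₂ ^ 4 * y₂ - a₄ * x₁ ^ 3 * x₂ ^ 3 * y₂ + a₄ ^ 2 * x₁ ^ 2 * x₂ ^ 2 * y₂ - x₁ ^ 3 * x₂ ^ 5 * y₂) * e₁ +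
    (-M * N * a₂ * a₄ * x₁ ^ 2 + M * N * a₂ * x₁ ^ 3 * x₂ + M * N * a₄ * x₁ ^ 2 * x₂ - M * N * a₄ * x₁ ^ 3 - M * N * a₄ ^ 2 * x₁ + M * N * x₁ ^ 4 * x₂ + M * a₂ * x₁ ^ 3 * x₂ ^ 2 * y₁ + M * a₂ * x₁ ^ 4 * x₂ * y₂ + 2 * M * a₄ * x₁ ^ 2 * x₂ ^ 2 * y₁ + M * a₄ * x₁ ^ 3 * x₂ * y₁ + M * a₄ * x₁ ^ 3 * x₂ * y₂ - M * a₄ ^ 2 * x₁ * x₂ * y₁ + M * x₁ ^ 5 * x₂ * y₂ - M ^ 2 * a₄ * x₁ * x₂ * y₁ + M ^ 2 * x₁ ^ 2 * x₂ ^ 2 * y₁ + N ^ 2 * a₄ * x₁ * y₁ - N ^ 2 * x₁ ^ 2 * x₂ * y₁ + a₂ * a₄ * x₁ ^ 3 * x₂ ^ 2 * y₁ - a₂ * x₁ ^ 4 * x₂ ^ 3 * y₁ + a₄ * x₁ ^ 3 * x₂ ^ 3 * y₁ - a₄ * x₁ ^ 4 * x₂ ^ 2 * y₁ + a₄ ^ 2 * x₁ ^ 3 * x₂ * y₁ - x₁ ^ 4 * x₂ ^ 4 * y₁) * e₂ +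
    (M * a₂ * a₄ * x₁ ^ 2 * x₂ ^ 3 + M * a₂ * a₄ * x₁ ^ 3 * x₂ ^ 2 + M * a₂ * x₁ ^ 3 * x₂ ^ 4 + M * a₂ * x₁ ^ 4 * x₂ ^ 3 + M * a₂ ^ 2 * x₁ ^ 3 * x₂ ^ 3 + M * a₄ * x₁ ^ 2 * x₂ ^ 4 + M * a₄ * x₁ ^ 4 * x₂ ^ 2 + M * a₄ ^ 2 * x₁ ^ 2 * x₂ ^ 2 + M * x₁ ^ 4 * x₂ ^ 4 + N * a₂ * a₄ * x₁ * x₂ ^ 2 * y₁ - N * a₂ * x₁ ^ 2 * x₂ ^ 3 * y₁ + N * a₄ * x₁ * x₂ ^ 3 * y₁ - N * a₄ * x₁ ^ 2 * x₂ ^ 2 * y₁ + N * a₄ ^ 2 * x₁ * x₂ * y₁ - N * x₁ ^ 2 * x₂ ^ 4 * y₁ + a₂ * a₄ * x₁ ^ 2 * x₂ ^ 2 * y₁ * y₂ + a₂ * a₄ ^ 2 * x₁ ^ 2 * x₂ ^ 3 + a₂ * a₄ ^ 2 * x₁ ^ 3 * x₂ ^ 2 - a₂ * x₁ ^ 3 * x₂ ^ 3 * y₁ * y₂ - a₂ * x₁ ^ 4 * x₂ ^ 5 - a₂ * x₁ ^ 5 * x₂ ^ 4 + a₂ ^ 2 * a₄ * x₁ ^ 3 * x₂ ^ 3 - a₂ ^ 2 * x₁ ^ 4 * x₂ ^ 4 + a₄ * x₁ ^ 2 * x₂ ^ 3 * y₁ * y₂ - a₄ * x₁ ^ 3 * x₂ ^ 2 * y₁ * y₂ - a₄ * x₁ ^ 3 * x₂ ^ 5 +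 a₄ * x₁ ^ 4 * x₂ ^ 4 - a₄ * x₁ ^ 5 * x₂ ^ 3 + a₄ ^ 2 * x₁ ^ 2 * x₂ * y₁ * y₂ + a₄ ^ 2 * x₁ ^ 2 * x₂ ^ 4 - a₄ ^ 2 * x₁ ^ 3 * x₂ ^ 3 + a₄ ^ 2 * x₁ ^ 4 * x₂ ^ 2 + a₄ ^ 3 * x₁ ^ 2 * x₂ ^ 2 - x₁ ^ 3 * x₂ ^ 4 * y₁ * y₂ - x₁ ^ 5 * x₂ ^ 5) * hNd +
    (-M * a₂ * a₄ * x₁ * x₂ ^ 3 * y₁ + M * a₂ * x₁ ^ 2 * x₂ ^ 4 * y₁ - M * a₄ * x₁ * x₂ ^ 4 * y₁ + M * a₄ * x₁ ^ 2 * x₂ ^ 3 * y₁ - M * a₄ ^ 2 * x₁ * x₂ ^ 2 * y₁ + M * x₁ ^ 2 * x₂ ^ 5 * y₁ + a₂ * a₄ * x₁ ^ 2 * x₂ ^ 4 * y₁ + 3 * a₂ * a₄ * x₁ ^ 3 * x₂ ^ 3 * y₁ + 2 * a₂ * a₄ * x₁ ^ 3 * x₂ ^ 3 * y₂ + 2 * a₂ * a₄ * x₁ ^ 4 * x₂ ^ 2 * y₂ + 3 * a₂ * x₁ ^ 3 * x₂ ^ 5 * y₁ + a₂ * x₁ ^ 4 * x₂ ^ 4 * y₁ + 2 * a₂ * x₁ ^ 4 * x₂ ^ 4 * y₂ + 2 * a₂ * x₁ ^ 5 * x₂ ^ 3 * y₂ + 2 * a₂ ^ 2 * x₁ ^ 3 * x₂ ^ 4 * y₁ + 2 * a₂ ^ 2 * x₁ ^ 4 * x₂ ^ 3 * y₂ +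 a₄ * x₁ ^ 2 * x₂ ^ 5 * y₁ + 2 * a₄ * x₁ ^ 3 * x₂ ^ 4 * y₁ + 2 * a₄ * x₁ ^ 3 * x₂ ^ 4 * y₂ + a₄ * x₁ ^ 4 * x₂ ^ 3 * y₁ + 2 * a₄ * x₁ ^ 5 * x₂ ^ 2 * y₂ + a₄ ^ 2 * x₁ ^ 2 * x₂ ^ 3 * y₁ + a₄ ^ 2 * x₁ ^ 3 * x₂ ^ 2 * y₁ + 2 * a₄ ^ 2 * x₁ ^ 3 * x₂ ^ 2 * y₂ + x₁ ^ 3 * x₂ ^ 6 * y₁ + x₁ ^ 4 * x₂ ^ 5 * y₁ + 2 * x₁ ^ 5 * x₂ ^ 4 * y₂) * hMd

end CoreAlgebra

section Val

variable {K : Type*} [Field K] (A : ValuationSubring K)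

lemma val_gt_one_of_not_mem {x : K} (hx : x ∉ A) : 1 < A.valuation x := by
  rw [← not_le, A.valuation_le_one_iff]; exact hx

lemma ne_zero_of_not_mem {x : K} (hx : x ∉ A) : x ≠ 0 := by
  rintro rfl; exact hx A.zero_mem

lemma inv_mem_nonunits_of_not_mem {x : K} (hx : x ∉ A) : x⁻¹ ∈ A.nonunits :=
  A.inv_mem_nonunits_iff.2 (Or.inr hx)

lemma not_mem_of_inv_mem_nonunits {x : K} (hx0 : x ≠ 0) (hx : x⁻¹ ∈ A.nonunits) : x ∉ A := by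
  rcases A.inv_mem_nonunits_iff.1 hx with h | h
  · exact absurd h hx0
  · exact h

lemma mem_of_mem_nonunits {x : K} (hx : x ∈ A.nonunits) : x ∈ A :=
  A.nonunits_subset hx

lemma mul_mem_nonunits_of_mem_left {a m : K} (ha : a ∈ A) (hm : m ∈ A.nonunits) :
    a * m ∈ A.nonunits := by
  rw [A.mem_nonunits_iff] at hm ⊢
  rw [map_mul]
  have h1 : A.valuation a ≤ 1 := (A.valuation_le_one_iff a).2 ha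
  exact mul_lt_of_le_one_of_lt h1 hm

lemma mul_mem_nonunits_of_mem_right {a m : K} (hm : m ∈ A.nonunits) (ha : a ∈ A) :
    m * a ∈ A.nonunits := by
  rw [mul_comm]; exact mul_mem_nonunits_of_mem_left A ha hm

lemma val_one_add_of_mem_nonunits {m : K} (hm : m ∈ A.nonunits) : A.valuation (1 + m) = 1 := by
  rw [A.mem_nonunits_iff] at hm
  exact Valuation.map_one_add_of_lt _ hm

lemma val_one_sub_of_mem_nonunits {m : K} (hm : m ∈ A.nonunits) : A.valuation (1 - m) = 1 := by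
  rw [A.mem_nonunits_iff] at hm
  exact Valuation.map_one_sub_of_lt _ hm

lemma ne_zero_of_val_eq_one {x : K} (hx : A.valuation x = 1) : x ≠ 0 := by
  rintro rfl; simp at hx

lemma mem_of_val_eq_one {x : K} (hx : A.valuation x = 1) : x ∈ A :=
  (A.valuation_le_one_iff x).1 hx.le

lemma inv_mem_of_val_eq_one {x : K} (hx : A.valuation x = 1) : x⁻¹ ∈ A := by
  apply (A.valuation_le_one_iff _).1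
  rw [map_inv₀, hx, inv_one]

lemma not_mem_nonunits_of_val_eq_one {x : K} (hx : A.valuation x = 1) : x ∉ A.nonunits := by
  rw [A.mem_nonunits_iff, hx]; exact lt_irrefl _

/-- if `z ^ 2 * t ∈ 𝔪` with `t` a unit then `z ∈ 𝔪`. -/
lemma mem_nonunits_of_sq_mul {z t : K} (ht : A.valuation t = 1)
    (h : z ^ 2 * t ∈ A.nonunits) : z ∈ A.nonunits := by
  rw [A.mem_nonunits_iff] at h ⊢
  rw [map_mul, map_pow, ht, mul_one] at h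
  by_contra hz
  rw [not_lt] at hz
  exact absurd h (not_lt.2 (one_le_pow₀ hz))

/-- Basic facts about an affine point of `E₁` in the coordinates `u = 1/x`, `z = x/y`. -/
lemma E1_point_facts {a₂ a₄ x y : K} (h2 : a₂ ∈ A) (h4 : a₄ ∈ A)
    (e : y ^ 2 = x ^ 3 + a₂ * x ^ 2 + a₄ * x) (hx : x ∉ A) :
    x ≠ 0 ∧ y ≠ 0 ∧ x⁻¹ ∈ A.nonunits ∧ A.valuation (1 + a₂ * x⁻¹ + a₄ * x⁻¹ ^ 2) = 1 ∧
      (x / y) ^ 2 * (1 + a₂ * x⁻¹ + a₄ * x⁻¹ ^ 2) = x⁻¹ ∧ x / y ∈ A.nonunits := by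
  have hx0 : x ≠ 0 := ne_zero_of_not_mem A hx
  have hu : x⁻¹ ∈ A.nonunits := inv_mem_nonunits_of_not_mem A hx
  have hm : a₂ * x⁻¹ + a₄ * x⁻¹ ^ 2 ∈ A.nonunits :=
    A.nonunits.add_mem (mul_mem_nonunits_of_mem_left A h2 hu)
      (mul_mem_nonunits_of_mem_left A h4 (by rw [pow_two]; exact A.nonunits.mul_mem hu hu))
  have ht : A.valuation (1 + a₂ * x⁻¹ + a₄ * x⁻¹ ^ 2) = 1 := by
    rw [add_assoc]; exact val_one_add_of_mem_nonunits A hm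
  have ht0 : 1 + a₂ * x⁻¹ + a₄ * x⁻¹ ^ 2 ≠ 0 := ne_zero_of_val_eq_one A ht
  have e' : y ^ 2 = x ^ 3 * (1 + a₂ * x⁻¹ + a₄ * x⁻¹ ^ 2) := by
    rw [e]; field_simp
  have hy0 : y ≠ 0 := by
    rintro rfl
    have : x ^ 3 * (1 + a₂ * x⁻¹ + a₄ * x⁻¹ ^ 2) ≠ 0 := mul_ne_zero (pow_ne_zero _ hx0) ht0
    exact this (by rw [← e']; ring)
  have hz : (x / y) ^ 2 * (1 + a₂ * x⁻¹ + a₄ * x⁻¹ ^ 2) = x⁻¹ := by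
    rw [div_pow, e']
    generalize 1 + a₂ * x⁻¹ + a₄ * x⁻¹ ^ 2 = t at ht0
    field_simp
  refine ⟨hx0, hy0, hu, ht, hz, ?_⟩
  apply mem_nonunits_of_sq_mul A ht
  rw [hz]; exact hu

end Val

section Points

variable {K : Type*} [Field K] [DecidableEq K] {W : WeierstrassCurve K} (A : ValuationSubring K)

theorem InE1_neg (hW : IsModel W) {P : W.toAffine.Point} (hP : InE1 A P) : InE1 A (-P) := by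
  cases P with
  | zero => exact hP
  | some x y h =>
    obtain ⟨h', e⟩ := hW.neg_some h
    rw [e]
    exact hP

/-- The affine-affine case of the formal group estimate. -/
lemma InE1_add_z_some (hW : IsModel W) (h2 : W.a₂ ∈ A) (h4 : W.a₄ ∈ A)
    {x₁ y₁ x₂ y₂ : K} (h₁ : W.toAffine.Nonsingular x₁ y₁) (h₂ : W.toAffine.Nonsingular x₂ y₂)
    (hx₁ : x₁ ∉ A) (hx₂ : x₂ ∉ A) :
    InE1 A (Affine.Point.some x₁ y₁ h₁ + Affine.Point.some x₂ y₂ h₂) ∧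
      ∃ b ∈ A, zOf (Affine.Point.some x₁ y₁ h₁ + Affine.Point.some x₂ y₂ h₂) =
        (x₁ / y₁ + x₂ / y₂) * (1 + x₁ / y₁ * (x₂ / y₂) * b) := by
  have e₁ := hW.eq_of_nonsingular h₁
  have e₂ := hW.eq_of_nonsingular h₂
  obtain ⟨hx₁0, hy₁0, hu₁, ht₁, hz₁, hzm₁⟩ := E1_point_facts A h2 h4 e₁ hx₁
  obtain ⟨hx₂0, hy₂0, hu₂, ht₂, hz₂, hzm₂⟩ := E1_point_facts A h2 h4 e₂ hx₂
  have hMm : W.a₄ * x₁⁻¹ * x₂⁻¹ ∈ A.nonunits :=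
    A.nonunits.mul_mem (mul_mem_nonunits_of_mem_left A h4 hu₁) hu₂
  have hD : A.valuation (1 - W.a₄ * x₁⁻¹ * x₂⁻¹) = 1 := val_one_sub_of_mem_nonunits A hMm
  have hM : x₁ * x₂ - W.a₄ ≠ 0 := by
    intro h
    have : 1 - W.a₄ * x₁⁻¹ * x₂⁻¹ = 0 := by
      field_simp
      linear_combination h
    exact ne_zero_of_val_eq_one A hD this
  by_cases hN : y₁ * x₂ + y₂ * x₁ = 0
  · have hxx : x₁ = x₂ := by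
      have := hW.chord_identity h₁ h₂
      rw [hN, mul_zero] at this
      have h3 : (x₁ * x₂ - W.a₄) * (x₁ * x₂) * (x₁ - x₂) = 0 := by linear_combination this
      rcases mul_eq_zero.1 h3 with h | h
      · exact absurd h (mul_ne_zero hM (mul_ne_zero hx₁0 hx₂0))
      · exact sub_eq_zero.1 h
    have hyy' : y₁ = -y₂ := by
      have h3 : x₁ * (y₁ + y₂) = 0 := by rw [← hxx] at hN; linear_combination hN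
      rcases mul_eq_zero.1 h3 with h | h
      · exact absurd h hx₁0
      · linear_combination h
    have hyy : y₁ = W.toAffine.negY x₂ y₂ := by rw [hW.negY_eq]; exact hyy'
    rw [Affine.Point.add_of_Y_eq hxx hyy]
    refine ⟨InE1_zero A, 0, A.zero_mem, ?_⟩
    have : x₁ / y₁ + x₂ / y₂ = 0 := by
      rw [hxx, hyy']; field_simp; ring
    rw [this, zero_mul]; rfl
  · obtain ⟨h₃, e⟩ := hW.add_eq_II h₁ h₂ hx₁0 hx₂0 hN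
    rw [e]
    have c1 := kernel_core_sumX W.a₂ W.a₄ x₁ y₁ x₂ y₂ _ _ e₁ e₂ hx₁0 hx₂0 hy₁0 hy₂0 hN hM rfl
    have c2 := kernel_core_z W.a₂ W.a₄ x₁ y₁ x₂ y₂ _ _ e₁ e₂ hx₁0 hx₂0 hy₁0 hy₂0 hN rfl hM rfl
    have hβ : betaII W x₁ y₁ x₂ y₂ = -((x₁ * x₂ - W.a₄) * (x₁ * x₂)) / (y₁ * x₂ + y₂ * x₁) := rfl
    rw [← hβ] at c1 c2
    have hZ : (y₁ * x₂ + y₂ * x₁) / (y₁ * y₂) = x₁ / y₁ + x₂ / y₂ := by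
      field_simp; ring
    rw [hZ] at c1 c2
    generalize hX : sumX x₁ x₂ (betaII W x₁ y₁ x₂ y₂) = X at c1 c2 h₃ ⊢
    generalize hY : sumY x₁ y₁ x₂ (betaII W x₁ y₁ x₂ y₂) = Y at c2 h₃ ⊢
    have hZm : x₁ / y₁ + x₂ / y₂ ∈ A.nonunits := A.nonunits.add_mem hzm₁ hzm₂
    have hZ0 : x₁ / y₁ + x₂ / y₂ ≠ 0 := by
      rw [← hZ]; exact div_ne_zero hN (mul_ne_zero hy₁0 hy₂0)
    have hz₁A := mem_of_mem_nonunits A hzm₁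
    have hz₂A := mem_of_mem_nonunits A hzm₂
    have hu₁A := mem_of_mem_nonunits A hu₁
    have hu₂A := mem_of_mem_nonunits A hu₂
    have ht₁A := mem_of_val_eq_one A ht₁
    have ht₂A := mem_of_val_eq_one A ht₂
    have hZA := mem_of_mem_nonunits A hZm
    -- the x-coordinate is not integral
    have hXA : X ∉ A := by
      intro hXA
      have : (1 - W.a₄ * x₁⁻¹ * x₂⁻¹) ^ 2 ∈ A.nonunits := by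
        rw [← c1]
        apply mul_mem_nonunits_of_mem_left A hXA
        apply mul_mem_nonunits_of_mem_left A (A.mul_mem _ _ ht₁A ht₂A)
        rw [pow_two]; exact A.nonunits.mul_mem hZm hZm
      rw [A.mem_nonunits_iff, map_pow, hD, one_pow] at this
      exact lt_irrefl _ this
    refine ⟨hXA, ?_⟩
    have hX0 : X ≠ 0 := ne_zero_of_not_mem A hXA
    generalize hR : W.a₂ + W.a₄ * x₂⁻¹ + 2 * W.a₄ * x₁⁻¹ - W.a₄ ^ 2 * x₁⁻¹ ^ 2 * x₂⁻¹ +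
        (x₁ / y₁ + x₂ / y₂) * (x₂ / y₂) * W.a₄ * (1 + W.a₂ * x₁⁻¹ + W.a₄ * x₁⁻¹ ^ 2) *
          (1 + W.a₂ * x₂⁻¹ + W.a₄ * x₂⁻¹ ^ 2) = R at c2
    have hRA : R ∈ A := by
      rw [← hR]
      have h2A : (2 : K) ∈ A := ofNat_mem A 2
      refine A.add_mem _ _ (sub_mem (A.add_mem _ _ (A.add_mem _ _ h2 (A.mul_mem _ _ h4 hu₂A))
        (A.mul_mem _ _ (A.mul_mem _ _ h2A h4) hu₁A))
        (A.mul_mem _ _ (A.mul_mem _ _ (pow_mem h4 2) (pow_mem hu₁A 2)) hu₂A)) ?_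
      exact A.mul_mem _ _ (A.mul_mem _ _ (A.mul_mem _ _ (A.mul_mem _ _ hZA hz₂A) h4) ht₁A) ht₂A
    have hUm : x₁ / y₁ * (x₂ / y₂) * R ∈ A.nonunits :=
      mul_mem_nonunits_of_mem_right A (A.nonunits.mul_mem hzm₁ hzm₂) hRA
    have hU : A.valuation (1 + x₁ / y₁ * (x₂ / y₂) * R) = 1 := val_one_add_of_mem_nonunits A hUm
    have hU0 := ne_zero_of_val_eq_one A hU
    have hD0 := ne_zero_of_val_eq_one A hD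
    have hY0 : Y ≠ 0 := by
      rintro rfl
      rw [mul_zero] at c2
      exact mul_ne_zero hX0 hU0 c2
    have hEA : W.a₄ * (x₁ / y₁) * (x₂ / y₂) * (1 + W.a₂ * x₁⁻¹ + W.a₄ * x₁⁻¹ ^ 2) *
        (1 + W.a₂ * x₂⁻¹ + W.a₄ * x₂⁻¹ ^ 2) ∈ A :=
      A.mul_mem _ _ (A.mul_mem _ _ (A.mul_mem _ _ (A.mul_mem _ _ h4 hz₁A) hz₂A) ht₁A) ht₂A
    generalize hE : W.a₄ * (x₁ / y₁) * (x₂ / y₂) * (1 + W.a₂ * x₁⁻¹ + W.a₄ * x₁⁻¹ ^ 2) *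
        (1 + W.a₂ * x₂⁻¹ + W.a₄ * x₂⁻¹ ^ 2) = E at hEA
    have hDE : 1 - W.a₄ * x₁⁻¹ * x₂⁻¹ = 1 - x₁ / y₁ * (x₂ / y₂) * E := by
      rw [← hE]
      linear_combination (W.a₄ * x₂⁻¹) * hz₁ +
        (W.a₄ * (x₁ / y₁) ^ 2 * (1 + W.a₂ * x₁⁻¹ + W.a₄ * x₁⁻¹ ^ 2)) * hz₂
    refine ⟨-(E + R) / (1 + x₁ / y₁ * (x₂ / y₂) * R), ?_, ?_⟩
    · rw [div_eq_mul_inv]
      exact A.mul_mem _ _ (neg_mem (A.add_mem _ _ hEA hRA)) (inv_mem_of_val_eq_one A hU)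
    · rw [zOf_some]
      rw [hDE] at c2
      generalize x₁ / y₁ * (x₂ / y₂) = p at c2 hU0 ⊢
      generalize x₁ / y₁ + x₂ / y₂ = Z at c2 ⊢
      rw [div_eq_iff hY0]
      field_simp
      linear_combination c2

/-- the formal group estimate -/
theorem InE1_add_z (hW : IsModel W) (h2 : W.a₂ ∈ A) (h4 : W.a₄ ∈ A)
    {P Q : W.toAffine.Point} (hP : InE1 A P) (hQ : InE1 A Q) :
    InE1 A (P + Q) ∧ ∃ b ∈ A, zOf (P + Q) = (zOf P + zOf Q) * (1 + zOf P * zOf Q * b) := by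
  cases P with
  | zero =>
    rw [show (Affine.Point.zero : W.toAffine.Point) = 0 from rfl, zero_add]
    exact ⟨hQ, 0, A.zero_mem, by simp⟩
  | some x₁ y₁ h₁ =>
    cases Q with
    | zero =>
      rw [show (Affine.Point.zero : W.toAffine.Point) = 0 from rfl, add_zero]
      exact ⟨hP, 0, A.zero_mem, by simp⟩
    | some x₂ y₂ h₂ => exact InE1_add_z_some A hW h2 h4 h₁ h₂ hP hQ

theorem InE1_add (hW : IsModel W) (h2 : W.a₂ ∈ A) (h4 : W.a₄ ∈ A)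
    {P Q : W.toAffine.Point} (hP : InE1 A P) (hQ : InE1 A Q) : InE1 A (P + Q) :=
  (InE1_add_z A hW h2 h4 hP hQ).1

theorem InE1_sub (hW : IsModel W) (h2 : W.a₂ ∈ A) (h4 : W.a₄ ∈ A)
    {P Q : W.toAffine.Point} (hP : InE1 A P) (hQ : InE1 A Q) : InE1 A (P - Q) := by
  rw [sub_eq_add_neg]
  exact InE1_add A hW h2 h4 hP (InE1_neg A hW hQ)

/-- The formal parameter of a point of `E₁` lies in the maximal ideal. -/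
theorem zOf_mem_nonunits (hW : IsModel W) (h2 : W.a₂ ∈ A) (h4 : W.a₄ ∈ A)
    {P : W.toAffine.Point} (hP : InE1 A P) : zOf P ∈ A.nonunits := by
  cases P with
  | zero => exact A.nonunits.zero_mem
  | some x y h => exact (E1_point_facts A h2 h4 (hW.eq_of_nonsingular h) hP).2.2.2.2.2

/-- A point of `E₁` with vanishing formal parameter is `0`. -/
theorem eq_zero_of_zOf_eq_zero (hW : IsModel W) (h2 : W.a₂ ∈ A) (h4 : W.a₄ ∈ A)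
    {P : W.toAffine.Point} (hP : InE1 A P) (hz : zOf P = 0) : P = 0 := by
  cases P with
  | zero => rfl
  | some x y h =>
    obtain ⟨hx0, hy0, -⟩ := E1_point_facts A h2 h4 (hW.eq_of_nonsingular h) hP
    exact absurd hz (div_ne_zero hx0 hy0)

/-- multiplication by `n` on `E₁` in terms of the formal parameter. -/
theorem InE1_nsmul_z (hW : IsModel W) (h2 : W.a₂ ∈ A) (h4 : W.a₄ ∈ A)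
    {P : W.toAffine.Point} (hP : InE1 A P) (n : ℕ) :
    InE1 A (n • P) ∧ ∃ b ∈ A, zOf (n • P) = zOf P * ((n : K) + zOf P ^ 2 * b) := by
  have hzA : zOf P ∈ A := mem_of_mem_nonunits A (zOf_mem_nonunits A hW h2 h4 hP)
  induction n with
  | zero =>
    rw [zero_smul]
    exact ⟨InE1_zero A, 0, A.zero_mem, by simp⟩
  | succ n ih =>
    obtain ⟨h1, b, hb, hz⟩ := ih
    rw [succ_nsmul]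
    obtain ⟨h2', c, hc, hz'⟩ := InE1_add_z A hW h2 h4 h1 hP
    have hn : (n : K) ∈ A := natCast_mem A n
    have hnb : (n : K) + zOf P ^ 2 * b ∈ A := A.add_mem _ _ hn (A.mul_mem _ _ (pow_mem hzA 2) hb)
    refine ⟨h2', b + ((n : K) + 1) * ((n : K) + zOf P ^ 2 * b) * c +
      zOf P ^ 2 * b * ((n : K) + zOf P ^ 2 * b) * c, ?_, ?_⟩
    · exact A.add_mem _ _ (A.add_mem _ _ hb (A.mul_mem _ _ (A.mul_mem _ _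
        (A.add_mem _ _ hn A.one_mem) hnb) hc))
        (A.mul_mem _ _ (A.mul_mem _ _ (A.mul_mem _ _ (pow_mem hzA 2) hb) hnb) hc)
    · rw [hz', hz]; push_cast; ring

theorem InE1_nsmul (hW : IsModel W) (h2 : W.a₂ ∈ A) (h4 : W.a₄ ∈ A)
    {P : W.toAffine.Point} (hP : InE1 A P) (n : ℕ) : InE1 A (n • P) :=
  (InE1_nsmul_z A hW h2 h4 hP n).1

theorem InE1_torsion_free (hW : IsModel W) (h2 : W.a₂ ∈ A) (h4 : W.a₄ ∈ A)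
    (n : ℕ) (hn : A.valuation (n : K) = 1) {P : W.toAffine.Point} (hP : InE1 A P)
    (hnP : n • P = 0) : P = 0 := by
  obtain ⟨-, b, hb, hz⟩ := InE1_nsmul_z A hW h2 h4 hP n
  have hzm := zOf_mem_nonunits A hW h2 h4 hP
  rw [hnP, zOf_zero] at hz
  have hm : zOf P ^ 2 * b ∈ A.nonunits :=
    mul_mem_nonunits_of_mem_right A (by rw [pow_two]; exact A.nonunits.mul_mem hzm hzm) hb
  have hv : A.valuation ((n : K) + zOf P ^ 2 * b) = 1 := by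
    rw [Valuation.map_add_eq_of_lt_left _ (by rw [hn]; exact (A.mem_nonunits_iff).1 hm), hn]
  have h0 := ne_zero_of_val_eq_one A hv
  rcases mul_eq_zero.1 hz.symm with h | h
  · exact eq_zero_of_zOf_eq_zero A hW h2 h4 hP h
  · exact absurd h h0

end Points

end Fermat.Agent.S05
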