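import Fermat.Agent.S05.Formulas

/-!
# S05: shared definitions (kernel of reduction, formal parameter, component function)
-/

set_option autoImplicit false
set_option linter.unusedSectionVars false

namespace Fermat.Agent.S05

open WeierstrassCurve

variable {K : Type*} [Field K] [DecidableEq K]

/-- The kernel of reduction `E₁ = {0} ∪ {(x,y) : x ∉ A}` as a predicate. -/
def InE1 (A : ValuationSubring K) {W : WeierstrassCurve K} : W.toAffine.Point → Prop
  | .zero => True
  | .some x _ _ => x ∉ A

/-- The formal parameter `z = x / y` (`z 0 = 0`). -/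
noncomputable def zOf {W : WeierstrassCurve K} : W.toAffine.Point → K
  | .zero => 0
  | .some x y _ => x / y

open Classical in
/-- The component function (multiplicative notation, `h = v a₄ < 1`): `1` on type `0`
(`1 ≤ v x`), `v a₄` on type `h` (`v x ≤ v a₄`), and `(v x)^{±1}` on type `±`
(`v a₄ < v x < 1`), with sign `+` iff `v (y + s x) < v x`. -/
noncomputable def comp (A : ValuationSubring K) (W : WeierstrassCurve K) (s : K) :
    W.toAffine.Point → A.ValueGroup
  | .zero => 1
  | .some x y _ =>
    if 1 ≤ A.valuation x then 1
    else if A.valuation x ≤ A.valuation W.a₄ then A.valuation W.a₄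
    else if A.valuation (y + s * x) < A.valuation x then A.valuation x
    else (A.valuation x)⁻¹

@[simp] lemma InE1_zero (A : ValuationSubring K) {W : WeierstrassCurve K} :
    InE1 A (0 : W.toAffine.Point) := trivial

@[simp] lemma InE1_some (A : ValuationSubring K) {W : WeierstrassCurve K} {x y : K}
    (h : W.toAffine.Nonsingular x y) : InE1 A (Affine.Point.some x y h) ↔ x ∉ A := Iff.rfl

@[simp] lemma zOf_zero {W : WeierstrassCurve K} : zOf (0 : W.toAffine.Point) = 0 := rfl

@[simp] lemma zOf_some {W : WeierstrassCurve K} {x y : K}
    (h : W.toAffine.Nonsingular x y) : zOf (Affine.Point.some x y h) = x / y := rfl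

@[simp] lemma comp_zero (A : ValuationSubring K) (W : WeierstrassCurve K) (s : K) :
    comp A W s (0 : W.toAffine.Point) = 1 := rfl

end Fermat.Agent.S05
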