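import Mathlib

/-!
# S05, master addition formulas on the model curve `Y² = X³ + a₂X² + a₄X`

Pure field algebra (no valuations).  For two affine points with nonzero `x`-coordinates the sum is
`(β²/(x₁x₂), -((y₁-β)/x₁ * β²/(x₁x₂) + β))`, where `β` is the `y`-intercept of the chord/tangent:
* Form I  (`x₁ ≠ x₂`): `β = (x₁y₂ - x₂y₁)/(x₁ - x₂)`;
* Form II (`y₁x₂ + y₂x₁ ≠ 0`, covers doubling): `β = -(x₁x₂ - a₄)x₁x₂/(y₁x₂ + y₂x₁)`.
-/

set_option autoImplicit false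
set_option linter.unusedSectionVars false

namespace Fermat.Agent.S05

open WeierstrassCurve

variable {K : Type*} [Field K] [DecidableEq K]

/-- The Weierstrass curve has the shape `Y² = X³ + a₂X² + a₄X`. -/
structure IsModel (W : WeierstrassCurve K) : Prop where
  a₁ : W.a₁ = 0
  a₃ : W.a₃ = 0
  a₆ : W.a₆ = 0

variable {W : WeierstrassCurve K}

lemma IsModel.equation_iff (hW : IsModel W) (x y : K) :
    W.toAffine.Equation x y ↔ y ^ 2 = x ^ 3 + W.a₂ * x ^ 2 + W.a₄ * x := by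
  rw [Affine.equation_iff, hW.a₁, hW.a₃, hW.a₆]
  constructor <;> intro h <;> linear_combination h

lemma IsModel.eq_of_nonsingular (hW : IsModel W) {x y : K} (h : W.toAffine.Nonsingular x y) :
    y ^ 2 = x ^ 3 + W.a₂ * x ^ 2 + W.a₄ * x :=
  (hW.equation_iff x y).1 h.1

lemma IsModel.negY_eq (hW : IsModel W) (x y : K) : W.toAffine.negY x y = -y := by
  simp [Affine.negY, hW.a₁, hW.a₃]

lemma IsModel.Δ_eq (hW : IsModel W) : W.Δ = 16 * W.a₄ ^ 2 * (W.a₂ ^ 2 - 4 * W.a₄) := by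
  simp only [WeierstrassCurve.Δ, WeierstrassCurve.b₂, WeierstrassCurve.b₄, WeierstrassCurve.b₆,
    WeierstrassCurve.b₈, hW.a₁, hW.a₃, hW.a₆]
  ring

/-- `T₀ = (0,0)` is a nonsingular point as soon as `a₄ ≠ 0`. -/
lemma IsModel.nonsingular_zero (hW : IsModel W) (h4 : W.a₄ ≠ 0) :
    W.toAffine.Nonsingular 0 0 := by
  rw [Affine.nonsingular_iff, Affine.equation_iff, hW.a₁, hW.a₃, hW.a₆]
  refine ⟨by ring, Or.inl ?_⟩
  simpa using h4.symm

/-- `μ² = x + a₂ + a₄/x`. -/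
lemma IsModel.mu_sq (hW : IsModel W) {x y : K} (h : W.toAffine.Nonsingular x y) (hx : x ≠ 0) :
    (y / x) ^ 2 = x + W.a₂ + W.a₄ / x := by
  have e := hW.eq_of_nonsingular h
  field_simp
  linear_combination e

/-- Negation on the model curve. -/
lemma IsModel.neg_some (hW : IsModel W) {x y : K} (h : W.toAffine.Nonsingular x y) :
    ∃ h' : W.toAffine.Nonsingular x (-y), -(Affine.Point.some x y h) = Affine.Point.some x (-y) h' := by
  have hn : W.toAffine.Nonsingular x (W.toAffine.negY x y) := (Affine.nonsingular_neg ..).mpr h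
  have e : W.toAffine.negY x y = -y := hW.negY_eq x y
  refine ⟨e ▸ hn, ?_⟩
  rw [Affine.Point.neg_some]
  congr 1

/-- `y`-intercept of the chord, Form I. -/
noncomputable def betaI (x₁ y₁ x₂ y₂ : K) : K := (x₁ * y₂ - x₂ * y₁) / (x₁ - x₂)

/-- `y`-intercept of the chord or tangent, Form II. -/
noncomputable def betaII (W : WeierstrassCurve K) (x₁ y₁ x₂ y₂ : K) : K :=
  -((x₁ * x₂ - W.a₄) * (x₁ * x₂)) / (y₁ * x₂ + y₂ * x₁)

/-- `x`-coordinate of the sum in terms of the `y`-intercept `β`. -/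
noncomputable def sumX (x₁ x₂ β : K) : K := β ^ 2 / (x₁ * x₂)

/-- `y`-coordinate of the sum in terms of the `y`-intercept `β`. -/
noncomputable def sumY (x₁ y₁ x₂ β : K) : K := -((y₁ - β) / x₁ * sumX x₁ x₂ β + β)

/-- The basic identity between two points of the model curve. -/
lemma IsModel.chord_identity (hW : IsModel W) {x₁ y₁ x₂ y₂ : K}
    (h₁ : W.toAffine.Nonsingular x₁ y₁) (h₂ : W.toAffine.Nonsingular x₂ y₂) :
    (x₁ * y₂ - x₂ * y₁) * (y₁ * x₂ + y₂ * x₁) = -((x₁ * x₂ - W.a₄) * (x₁ * x₂)) * (x₁ - x₂) := by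
  have e₁ := hW.eq_of_nonsingular h₁
  have e₂ := hW.eq_of_nonsingular h₂
  linear_combination x₁ ^ 2 * e₂ - x₂ ^ 2 * e₁

lemma IsModel.betaI_eq_betaII (hW : IsModel W) {x₁ y₁ x₂ y₂ : K}
    (h₁ : W.toAffine.Nonsingular x₁ y₁) (h₂ : W.toAffine.Nonsingular x₂ y₂)
    (hx : x₁ ≠ x₂) (hμ : y₁ * x₂ + y₂ * x₁ ≠ 0) :
    betaI x₁ y₁ x₂ y₂ = betaII W x₁ y₁ x₂ y₂ := by
  have hd : x₁ - x₂ ≠ 0 := sub_ne_zero.2 hx
  have := hW.chord_identity h₁ h₂
  rw [betaI, betaII, div_eq_div_iff hd hμ]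
  linear_combination this

/-- **Form I**: sum of two affine points with distinct nonzero `x`-coordinates. -/
theorem IsModel.add_eq_I (hW : IsModel W) {x₁ y₁ x₂ y₂ : K}
    (h₁ : W.toAffine.Nonsingular x₁ y₁) (h₂ : W.toAffine.Nonsingular x₂ y₂)
    (hx₁ : x₁ ≠ 0) (hx₂ : x₂ ≠ 0) (hx : x₁ ≠ x₂) :
    ∃ h₃ : W.toAffine.Nonsingular (sumX x₁ x₂ (betaI x₁ y₁ x₂ y₂))
        (sumY x₁ y₁ x₂ (betaI x₁ y₁ x₂ y₂)),
      Affine.Point.some x₁ y₁ h₁ + Affine.Point.some x₂ y₂ h₂ = Affine.Point.some _ _ h₃ := by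
  have hd : x₁ - x₂ ≠ 0 := sub_ne_zero.2 hx
  have e₁ := hW.eq_of_nonsingular h₁
  have e₂ := hW.eq_of_nonsingular h₂
  have hns := Affine.nonsingular_add h₁ h₂ (fun hxy => hx hxy.1)
  have hsl : W.toAffine.slope x₁ x₂ y₁ y₂ = (y₁ - y₂) / (x₁ - x₂) := Affine.slope_of_X_ne hx
  have hX : W.toAffine.addX x₁ x₂ (W.toAffine.slope x₁ x₂ y₁ y₂) =
      sumX x₁ x₂ (betaI x₁ y₁ x₂ y₂) := by
    rw [hsl, Affine.addX, hW.a₁, sumX, betaI]
    field_simp
    linear_combination (x₁ - x₂) * x₂ * e₁ - (x₁ - x₂) * x₁ * e₂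
  have hY : W.toAffine.addY x₁ x₂ y₁ (W.toAffine.slope x₁ x₂ y₁ y₂) =
      sumY x₁ y₁ x₂ (betaI x₁ y₁ x₂ y₂) := by
    rw [Affine.addY, Affine.negAddY, hW.negY_eq, hX, hsl, sumY]
    have : (y₁ - betaI x₁ y₁ x₂ y₂) / x₁ = (y₁ - y₂) / (x₁ - x₂) := by
      rw [betaI]; field_simp; ring
    rw [this]
    have hb : betaI x₁ y₁ x₂ y₂ = y₁ - (y₁ - y₂) / (x₁ - x₂) * x₁ := by
      rw [betaI]; field_simp; ring
    rw [hb]; ring
  refine ⟨hX ▸ hY ▸ hns, ?_⟩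
  rw [Affine.Point.add_of_X_ne hx]
  congr 1

/-- **Form II**: sum of two affine points with nonzero `x`-coordinates and `μ₁ + μ₂ ≠ 0`
(this covers doubling). -/
theorem IsModel.add_eq_II (hW : IsModel W) {x₁ y₁ x₂ y₂ : K}
    (h₁ : W.toAffine.Nonsingular x₁ y₁) (h₂ : W.toAffine.Nonsingular x₂ y₂)
    (hx₁ : x₁ ≠ 0) (hx₂ : x₂ ≠ 0) (hμ : y₁ * x₂ + y₂ * x₁ ≠ 0) :
    ∃ h₃ : W.toAffine.Nonsingular (sumX x₁ x₂ (betaII W x₁ y₁ x₂ y₂))
        (sumY x₁ y₁ x₂ (betaII W x₁ y₁ x₂ y₂)),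
      Affine.Point.some x₁ y₁ h₁ + Affine.Point.some x₂ y₂ h₂ = Affine.Point.some _ _ h₃ := by
  by_cases hx : x₁ = x₂
  · subst hx
    have e₁ := hW.eq_of_nonsingular h₁
    have e₂ := hW.eq_of_nonsingular h₂
    have hyy : y₂ = y₁ := by
      have h0 : (y₂ - y₁) * (y₂ + y₁) = 0 := by linear_combination e₂ - e₁
      rcases mul_eq_zero.1 h0 with h | h
      · exact sub_eq_zero.1 h
      · exfalso; apply hμ; linear_combination x₁ * h
    subst hyy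
    have h2y : y₂ + y₂ ≠ 0 := by
      intro h; apply hμ; linear_combination x₁ * h
    have hy0 : y₂ ≠ 0 := by
      rintro rfl; simp at h2y
    have hy : y₂ ≠ W.toAffine.negY x₁ y₂ := by
      rw [hW.negY_eq]; intro h; apply h2y; linear_combination h
    have hns := Affine.nonsingular_add h₁ h₁ (fun hxy => hy hxy.2)
    have h2 : (2 : K) ≠ 0 := by
      intro h; apply h2y; linear_combination y₂ * h
    have hsl : W.toAffine.slope x₁ x₁ y₂ y₂ =
        (3 * x₁ ^ 2 + 2 * W.a₂ * x₁ + W.a₄) / (2 * y₂) := by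
      rw [Affine.slope_of_Y_ne rfl hy, hW.negY_eq, hW.a₁]
      congr 1 <;> ring
    have hβ : betaII W x₁ y₂ x₁ y₂ = -((x₁ ^ 2 - W.a₄) * x₁) / (2 * y₂) := by
      rw [betaII, div_eq_div_iff hμ (mul_ne_zero h2 hy0)]; ring
    have hX : W.toAffine.addX x₁ x₁ (W.toAffine.slope x₁ x₁ y₂ y₂) =
        sumX x₁ x₁ (betaII W x₁ y₂ x₁ y₂) := by
      rw [hsl, Affine.addX, hW.a₁, sumX, hβ]
      field_simp
      linear_combination (-4 * (W.a₂ + 2 * x₁)) * e₁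
    have hY : W.toAffine.addY x₁ x₁ y₂ (W.toAffine.slope x₁ x₁ y₂ y₂) =
        sumY x₁ y₂ x₁ (betaII W x₁ y₂ x₁ y₂) := by
      rw [Affine.addY, Affine.negAddY, hW.negY_eq, hX, hsl, sumY]
      have : (y₂ - betaII W x₁ y₂ x₁ y₂) / x₁ =
          (3 * x₁ ^ 2 + 2 * W.a₂ * x₁ + W.a₄) / (2 * y₂) := by
        rw [hβ]; field_simp
        linear_combination (2 : K) * e₁
      rw [this]
      have hb : betaII W x₁ y₂ x₁ y₂ =
          y₂ - (3 * x₁ ^ 2 + 2 * W.a₂ * x₁ + W.a₄) / (2 * y₂) * x₁ := by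
        rw [hβ]; field_simp
        linear_combination (-2 : K) * e₁
      rw [hb]; ring
    refine ⟨hX ▸ hY ▸ hns, ?_⟩
    rw [Affine.Point.add_self_of_Y_ne hy]
    congr 1
  · obtain ⟨h₃, e⟩ := hW.add_eq_I h₁ h₂ hx₁ hx₂ hx
    have hb := hW.betaI_eq_betaII h₁ h₂ hx hμ
    revert h₃ e
    rw [hb]
    intro h₃ e
    exact ⟨h₃, e⟩

/-- Translation by the `2`-torsion point `T₀ = (0,0)`. -/
theorem IsModel.add_T0 (hW : IsModel W) (h4 : W.a₄ ≠ 0) {x y : K}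
    (h : W.toAffine.Nonsingular x y) (hx : x ≠ 0) :
    ∃ h' : W.toAffine.Nonsingular (W.a₄ / x) (-(W.a₄ * y / x ^ 2)),
      Affine.Point.some x y h + Affine.Point.some 0 0 (hW.nonsingular_zero h4) =
        Affine.Point.some _ _ h' := by
  have e := hW.eq_of_nonsingular h
  have h0 := hW.nonsingular_zero h4
  have hns := Affine.nonsingular_add h h0 (fun hxy => hx hxy.1)
  have hsl : W.toAffine.slope x 0 y 0 = y / x := by
    rw [Affine.slope_of_X_ne hx]; simp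
  have hX : W.toAffine.addX x 0 (W.toAffine.slope x 0 y 0) = W.a₄ / x := by
    rw [hsl, Affine.addX, hW.a₁]
    field_simp
    linear_combination e
  have hY : W.toAffine.addY x 0 y (W.toAffine.slope x 0 y 0) = -(W.a₄ * y / x ^ 2) := by
    rw [Affine.addY, Affine.negAddY, hW.negY_eq, hX, hsl]
    field_simp
    ring
  refine ⟨hX ▸ hY ▸ hns, ?_⟩
  rw [Affine.Point.add_of_X_ne hx]
  congr 1

end Fermat.Agent.S05
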