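import Mathlib
import Fermat.Prelude.Def_FLTPrelim_Ramification

/-!
# S05: elementary facts on the inertia subgroup of a valuation subring
-/

set_option autoImplicit false
set_option linter.unusedSectionVars false

namespace Fermat.Agent.S05

open scoped Pointwise

variable {F K : Type*} [Field F] [Field K] [Algebra F K] (A : ValuationSubring K)

/-- An element of the decomposition group maps `A` into `A`. -/
lemma mem_of_mem_decomposition {σ : K ≃ₐ[F] K} (hσ : σ ∈ A.decompositionSubgroup F) {x : K}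
    (hx : x ∈ A) : σ x ∈ A := by
  have h : σ • A = A := hσ
  have : σ • x ∈ σ • A := ValuationSubring.smul_mem_pointwise_smul σ x A hx
  rw [h] at this
  exact this

lemma inertiaSubgroupIn_le_decomposition {σ : K ≃ₐ[F] K} (hσ : σ ∈ A.inertiaSubgroupIn F) :
    σ ∈ A.decompositionSubgroup F := by
  obtain ⟨τ, -, rfl⟩ := hσ
  exact τ.2

/-- An element of the inertia group maps `A` into `A`. -/
lemma inertia_mem {σ : K ≃ₐ[F] K} (hσ : σ ∈ A.inertiaSubgroupIn F) {x : K} (hx : x ∈ A) :
    σ x ∈ A :=
  mem_of_mem_decomposition A (inertiaSubgroupIn_le_decomposition A hσ) hx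

/-- An element of the inertia group reflects membership in `A`. -/
lemma inertia_mem_iff {σ : K ≃ₐ[F] K} (hσ : σ ∈ A.inertiaSubgroupIn F) {x : K} :
    σ x ∈ A ↔ x ∈ A := by
  refine ⟨fun h => ?_, inertia_mem A hσ⟩
  have hd : σ⁻¹ ∈ A.decompositionSubgroup F :=
    inv_mem (inertiaSubgroupIn_le_decomposition A hσ)
  have := mem_of_mem_decomposition A hd h
  simpa using this

/-- An element of the inertia group is congruent to the identity modulo the maximal ideal. -/
lemma inertia_sub_mem_nonunits {σ : K ≃ₐ[F] K} (hσ : σ ∈ A.inertiaSubgroupIn F) {x : K}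
    (hx : x ∈ A) : σ x - x ∈ A.nonunits := by
  obtain ⟨τ, hτ, rfl⟩ := hσ
  have h1 : MulSemiringAction.toRingAut (A.decompositionSubgroup F)
      (IsLocalRing.ResidueField A) τ = 1 := hτ
  have h2 : τ • IsLocalRing.residue A ⟨x, hx⟩ = IsLocalRing.residue A ⟨x, hx⟩ := by
    have := congrArg (fun f => f (IsLocalRing.residue A ⟨x, hx⟩)) h1
    simpa using this
  rw [← IsLocalRing.ResidueField.residue_smul] at h2
  have h3 : IsLocalRing.residue A (τ • (⟨x, hx⟩ : A) - ⟨x, hx⟩) = 0 := by
    rw [map_sub, h2, sub_self]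
  have h4 : (τ • (⟨x, hx⟩ : A) - ⟨x, hx⟩) ∈ IsLocalRing.maximalIdeal A := by
    rwa [IsLocalRing.residue_eq_zero_iff] at h3
  have h5 := (ValuationSubring.coe_mem_nonunits_iff (A := A)).2 h4
  exact h5

end Fermat.Agent.S05
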