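import Fermat.Agent.S05.Formulas
import Fermat.Prelude.Def_FLTPrelim_GaloisRep

/-!
# S05: transfer from a curve `y² + xy = x³ + a₂x² + a₄x` to the model `Y² = X³ + α₂X² + α₄X`

`X = 4x - r`, `Y = 8y + 4x`, where `r` is a root of `X³ + (4a₂+1)X² + 16a₄X`.
-/

set_option autoImplicit false
set_option linter.unusedSectionVars false

namespace Fermat.Agent.S05

open WeierstrassCurve

variable {K : Type*} [Field K] [DecidableEq K]

/-- `W` is the model of `E` obtained by `X = 4x - r`, `Y = 8y + 4x`. -/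
structure IsTransfer (E W : WeierstrassCurve K) (r : K) : Prop where
  E_a₁ : E.a₁ = 1
  E_a₃ : E.a₃ = 0
  E_a₆ : E.a₆ = 0
  W_model : IsModel W
  W_a₂ : W.a₂ = 3 * r + (4 * E.a₂ + 1)
  W_a₄ : W.a₄ = 3 * r ^ 2 + 2 * r * (4 * E.a₂ + 1) + 16 * E.a₄
  hr : r ^ 3 + (4 * E.a₂ + 1) * r ^ 2 + 16 * E.a₄ * r = 0
  hΔ : W.Δ ≠ 0
  h2 : (2 : K) ≠ 0

variable {E W : WeierstrassCurve K} {r : K}

lemma IsTransfer.equation (h : IsTransfer E W r) {x y : K} (hxy : E.toAffine.Equation x y) :
    W.toAffine.Equation (4 * x - r) (8 * y + 4 * x) := by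
  rw [h.W_model.equation_iff, h.W_a₂, h.W_a₄]
  rw [Affine.equation_iff, h.E_a₁, h.E_a₃, h.E_a₆] at hxy
  linear_combination 64 * hxy + h.hr

lemma IsTransfer.nonsingular (h : IsTransfer E W r) {x y : K}
    (hxy : E.toAffine.Nonsingular x y) :
    W.toAffine.Nonsingular (4 * x - r) (8 * y + 4 * x) :=
  (Affine.equation_iff_nonsingular_of_Δ_ne_zero h.hΔ).1 (h.equation hxy.1)

/-- The transfer map on points. -/
noncomputable def transfer (h : IsTransfer E W r) : E.toAffine.Point → W.toAffine.Point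
  | .zero => 0
  | .some _ _ hxy => .some _ _ (h.nonsingular hxy)

@[simp] lemma transfer_zero (h : IsTransfer E W r) : transfer h 0 = 0 := rfl

@[simp] lemma transfer_some (h : IsTransfer E W r) {x y : K} (hxy : E.toAffine.Nonsingular x y) :
    transfer h (.some x y hxy) = .some (4 * x - r) (8 * y + 4 * x) (h.nonsingular hxy) := rfl

lemma IsTransfer.four_ne (h : IsTransfer E W r) : (4 : K) ≠ 0 := by
  have : (4 : K) = 2 * 2 := by norm_num
  rw [this]; exact mul_ne_zero h.h2 h.h2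

lemma IsTransfer.eight_ne (h : IsTransfer E W r) : (8 : K) ≠ 0 := by
  have : (8 : K) = 2 * 2 * 2 := by norm_num
  rw [this]; exact mul_ne_zero (mul_ne_zero h.h2 h.h2) h.h2

lemma transfer_injective (h : IsTransfer E W r) : Function.Injective (transfer h) := by
  rintro (_ | ⟨x₁, y₁, h₁⟩) (_ | ⟨x₂, y₂, h₂⟩) e
  · rfl
  · exact absurd e (by simp [transfer])
  · exact absurd e (by simp [transfer])
  · simp only [transfer_some, Affine.Point.some.injEq] at e
    obtain ⟨e₁, e₂⟩ := e
    have hx : x₁ = x₂ := by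
      have : 4 * (x₁ - x₂) = 0 := by linear_combination e₁
      exact sub_eq_zero.1 ((mul_eq_zero.1 this).resolve_left h.four_ne)
    subst hx
    have hy : y₁ = y₂ := by
      have : 8 * (y₁ - y₂) = 0 := by linear_combination e₂
      exact sub_eq_zero.1 ((mul_eq_zero.1 this).resolve_left h.eight_ne)
    subst hy
    rfl

lemma transfer_add (h : IsTransfer E W r) (P Q : E.toAffine.Point) :
    transfer h (P + Q) = transfer h P + transfer h Q := by
  rcases P with _ | ⟨x₁, y₁, h₁⟩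
  · change transfer h (0 + Q) = 0 + transfer h Q
    rw [zero_add, zero_add]
  rcases Q with _ | ⟨x₂, y₂, h₂⟩
  · change transfer h (_ + 0) = _ + 0
    rw [add_zero, add_zero]
  have hnE : ∀ x y : K, E.toAffine.negY x y = -y - x := by
    intro x y; simp [Affine.negY, h.E_a₁, h.E_a₃]
  have hnW : ∀ x y : K, W.toAffine.negY x y = -y := h.W_model.negY_eq
  by_cases hxy : x₁ = x₂ ∧ y₁ = E.toAffine.negY x₂ y₂
  · obtain ⟨hx, hy⟩ := hxy
    rw [Affine.Point.add_of_Y_eq hx hy, transfer_zero, transfer_some, transfer_some,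
      Affine.Point.add_of_Y_eq (by rw [hx]) (by rw [hnW, hy, hnE, hx]; ring)]
  · have hxy' : ¬(4 * x₁ - r = 4 * x₂ - r ∧ 8 * y₁ + 4 * x₁ = W.toAffine.negY (4 * x₂ - r)
        (8 * y₂ + 4 * x₂)) := by
      rintro ⟨e₁, e₂⟩
      apply hxy
      have hx : x₁ = x₂ := by
        have : 4 * (x₁ - x₂) = 0 := by linear_combination e₁
        exact sub_eq_zero.1 ((mul_eq_zero.1 this).resolve_left h.four_ne)
      refine ⟨hx, ?_⟩
      rw [hnW] at e₂
      rw [hnE]
      have : 8 * (y₁ - (-y₂ - x₂)) = 0 := by rw [hx] at e₂; linear_combination e₂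
      exact sub_eq_zero.1 ((mul_eq_zero.1 this).resolve_left h.eight_ne)
    rw [Affine.Point.add_some hxy, transfer_some, transfer_some, transfer_some,
      Affine.Point.add_some hxy']
    -- slope relation
    have hsl : W.toAffine.slope (4 * x₁ - r) (4 * x₂ - r) (8 * y₁ + 4 * x₁) (8 * y₂ + 4 * x₂) =
        2 * E.toAffine.slope x₁ x₂ y₁ y₂ + 1 := by
      by_cases hx : x₁ = x₂
      · have hy : y₁ ≠ E.toAffine.negY x₂ y₂ := fun hy => hxy ⟨hx, hy⟩
        have hy' : 8 * y₁ + 4 * x₁ ≠ W.toAffine.negY (4 * x₂ - r) (8 * y₂ + 4 * x₂) :=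
          fun hy' => hxy' ⟨by rw [hx], hy'⟩
        rw [Affine.slope_of_Y_ne hx hy, Affine.slope_of_Y_ne (by rw [hx]) hy', hnW, hnE,
          h.W_model.a₁, h.E_a₁, h.W_a₂, h.W_a₄]
        subst hx
        have e₁ := h₁.1
        have e₂ := h₂.1
        rw [Affine.equation_iff, h.E_a₁, h.E_a₃, h.E_a₆] at e₁ e₂
        have hyy : y₁ = y₂ := by
          have h0 : (y₁ - y₂) * (y₁ - (-y₂ - x₁)) = 0 := by linear_combination e₁ - e₂
          rcases mul_eq_zero.1 h0 with h0 | h0
          · exact sub_eq_zero.1 h0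
          · exact absurd (sub_eq_zero.1 h0) (by rwa [hnE] at hy)
        subst hyy
        have hd : 2 * y₁ + x₁ ≠ 0 := by
          rw [hnE] at hy
          intro h0; apply hy; linear_combination h0
        have h2 := h.h2
        have e1 : y₁ - (-y₁ - x₁) = 2 * y₁ + x₁ := by ring
        have e2 : 8 * y₁ + 4 * x₁ - -(8 * y₁ + 4 * x₁) = 2 * (2 * (2 * (2 * y₁ + x₁))) := by ring
        rw [e1, e2]
        field_simp
        ring
      · have hx' : 4 * x₁ - r ≠ 4 * x₂ - r := by
          intro e; apply hx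
          have : 4 * (x₁ - x₂) = 0 := by linear_combination e
          exact sub_eq_zero.1 ((mul_eq_zero.1 this).resolve_left h.four_ne)
        rw [Affine.slope_of_X_ne hx, Affine.slope_of_X_ne hx']
        have hd : x₁ - x₂ ≠ 0 := sub_ne_zero.2 hx
        have hd' : 4 * x₁ - r - (4 * x₂ - r) ≠ 0 := sub_ne_zero.2 hx'
        have h4 := h.four_ne
        field_simp
        ring
    have hX : W.toAffine.addX (4 * x₁ - r) (4 * x₂ - r)
        (W.toAffine.slope (4 * x₁ - r) (4 * x₂ - r) (8 * y₁ + 4 * x₁) (8 * y₂ + 4 * x₂)) =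
        4 * E.toAffine.addX x₁ x₂ (E.toAffine.slope x₁ x₂ y₁ y₂) - r := by
      rw [hsl, Affine.addX, Affine.addX, h.W_model.a₁, h.E_a₁, h.W_a₂]
      ring
    have hY : W.toAffine.addY (4 * x₁ - r) (4 * x₂ - r) (8 * y₁ + 4 * x₁)
        (W.toAffine.slope (4 * x₁ - r) (4 * x₂ - r) (8 * y₁ + 4 * x₁) (8 * y₂ + 4 * x₂)) =
        8 * E.toAffine.addY x₁ x₂ y₁ (E.toAffine.slope x₁ x₂ y₁ y₂) +
          4 * E.toAffine.addX x₁ x₂ (E.toAffine.slope x₁ x₂ y₁ y₂) := by
      rw [Affine.addY, Affine.addY, Affine.negAddY, Affine.negAddY, hnW, hnE, hX, hsl]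
      ring
    congr 1
    · exact hX.symm
    · exact hY.symm

/-- The transfer as an additive homomorphism. -/
noncomputable def transferHom (h : IsTransfer E W r) : E.toAffine.Point →+ W.toAffine.Point where
  toFun := transfer h
  map_zero' := rfl
  map_add' := transfer_add h

section Galois

open WeierstrassCurve.Affine.Point

variable {R S L : Type*} [CommRing R] [Field S] [Field L] [DecidableEq L]
  [Algebra R S] [Algebra R L] [Algebra S L] [IsScalarTower R S L]
  {E₀ W₀ : WeierstrassCurve R} {r₀ : R}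

lemma algEquiv_smul_some (σ : L ≃ₐ[S] L) {x y : L} (h : (E₀⁄L).toAffine.Nonsingular x y) :
    ∃ h' : (E₀⁄L).toAffine.Nonsingular (σ x) (σ y),
      σ • (Affine.Point.some x y h : (E₀⁄L).toAffine.Point) = Affine.Point.some (σ x) (σ y) h' :=
  ⟨_, rfl⟩

lemma algEquiv_algebraMap (σ : L ≃ₐ[S] L) (x : R) : σ (algebraMap R L x) = algebraMap R L x := by
  rw [IsScalarTower.algebraMap_apply R S L, σ.commutes]

/-- The transfer map commutes with the Galois action. -/
lemma transfer_smul (h : IsTransfer (E₀⁄L) (W₀⁄L) (algebraMap R L r₀)) (σ : L ≃ₐ[S] L)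
    (P : (E₀⁄L).toAffine.Point) :
    transfer h (σ • P) = σ • transfer h P := by
  rcases P with _ | ⟨x, y, hxy⟩
  · rfl
  · obtain ⟨h₁, e₁⟩ := algEquiv_smul_some σ hxy
    obtain ⟨h₂, e₂⟩ := algEquiv_smul_some (E₀ := W₀) σ (h.nonsingular hxy)
    rw [e₁, transfer_some, transfer_some, e₂]
    congr 1
    · rw [map_sub, map_mul, algEquiv_algebraMap, map_ofNat]
    · rw [map_add, map_mul, map_mul, map_ofNat, map_ofNat]

end Galois

end Fermat.Agent.S05
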