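import Fermat.Agent.S05.Defs
import Fermat.Agent.S05.Inertia
import Fermat.Agent.S05.Transfer
import Fermat.Prelude.Def_FLTPrelim_GaloisRep
import Fermat.Prelude.Def_FLTPrelim_Ramification

/-!
# S05: inertia acts trivially on the `p`-torsion of the model curve

Assembly of T1 (kernel of reduction), T2 (congruent points), T3 (component function) and the
explicit inertia-fixed points (T4).
-/

set_option autoImplicit false
set_option linter.unusedSectionVars false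

namespace Fermat.Agent.S05

open WeierstrassCurve WeierstrassCurve.Affine.Point

section Interfaces

variable {K : Type*} [Field K] [DecidableEq K]

/-- Interface T1: the kernel of reduction is a torsion-free (prime to the residue
characteristic) subgroup. -/
structure KernelProps (A : ValuationSubring K) (W : WeierstrassCurve K) : Prop where
  add : ∀ {P Q : W.toAffine.Point}, InE1 A P → InE1 A Q → InE1 A (P + Q)
  neg : ∀ {P : W.toAffine.Point}, InE1 A P → InE1 A (-P)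
  torsion_free : ∀ (n : ℕ), A.valuation (n : K) = 1 →
    ∀ {P : W.toAffine.Point}, InE1 A P → n • P = 0 → P = 0

/-- Interface T2: congruent integral points with unit `x` differ by an element of `E₁`. -/
def CongrProp (A : ValuationSubring K) (W : WeierstrassCurve K) : Prop :=
  ∀ {x y x' y' : K} (h : W.toAffine.Nonsingular x y) (h' : W.toAffine.Nonsingular x' y'),
    A.valuation x = 1 → x - x' ∈ A.nonunits → y - y' ∈ A.nonunits →
    InE1 A (Affine.Point.some x y h - Affine.Point.some x' y' h')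

/-- Interface T3: the component function is additive modulo `v(a₄)²`. -/
def CompProp (A : ValuationSubring K) (W : WeierstrassCurve K) (s : K) : Prop :=
  ∀ P Q : W.toAffine.Point, ∃ j : ℤ,
    comp A W s (P + Q) = comp A W s P * comp A W s Q * (A.valuation W.a₄) ^ (2 * j)

lemma CompProp.nsmul {A : ValuationSubring K} {W : WeierstrassCurve K} {s : K}
    (hc : CompProp A W s) (h40 : W.a₄ ≠ 0) (P : W.toAffine.Point) (n : ℕ) :
    ∃ j : ℤ, comp A W s (n • P) = comp A W s P ^ n * (A.valuation W.a₄) ^ (2 * j) := by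
  have hv : A.valuation W.a₄ ≠ 0 := (Valuation.ne_zero_iff _).2 h40
  induction n with
  | zero => exact ⟨0, by simp⟩
  | succ n ih =>
    obtain ⟨j, hj⟩ := ih
    obtain ⟨j', hj'⟩ := hc (n • P) P
    refine ⟨j + j', ?_⟩
    rw [succ_nsmul, hj', hj, mul_add, zpow_add₀ hv, pow_succ]
    ac_rfl

end Interfaces

section Val

variable {K : Type*} [Field K] (A : ValuationSubring K)

lemma mem_of_sq_mem {y : K} (h : y ^ 2 ∈ A) : y ∈ A := by
  rw [← A.valuation_le_one_iff] at h ⊢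
  rw [map_pow] at h
  by_contra hy
  push Not at hy
  have : 1 < A.valuation y ^ 2 := one_lt_pow₀ hy (by norm_num)
  exact absurd h (not_le.2 this)

lemma val_eq_one_of_sq {y : K} (h : A.valuation (y ^ 2) = 1) : A.valuation y = 1 := by
  rw [map_pow] at h
  exact (pow_eq_one_iff_of_nonneg zero_le (by norm_num)).1 h

lemma val_eq_one_of_add {a b : K} (ha : A.valuation a = 1) (hb : A.valuation b < 1) :
    A.valuation (a + b) = 1 := by
  rw [Valuation.map_add_eq_of_lt_left _ (by rw [ha]; exact hb), ha]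

end Val

section Main

variable {R S K : Type*} [CommRing R] [Field S] [Field K] [DecidableEq K]
  [Algebra R S] [Algebra R K] [Algebra S K] [IsScalarTower R S K]
  {W₀ : WeierstrassCurve R} (A : ValuationSubring K) {σ : K ≃ₐ[S] K}

lemma InE1_smul (hσ : σ ∈ A.inertiaSubgroupIn S) {P : (W₀⁄K).toAffine.Point}
    (hP : InE1 A P) : InE1 A (σ • P) := by
  rcases P with _ | ⟨x, y, h⟩
  · exact hP
  · obtain ⟨h', e⟩ := algEquiv_smul_some σ h
    rw [e]
    exact fun hx => hP ((inertia_mem_iff A hσ).1 hx)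

lemma IsModel.y_mem (hW : IsModel (W₀⁄K)) (ha₂ : (W₀⁄K).a₂ ∈ A) (ha₄ : (W₀⁄K).a₄ ∈ A)
    {x y : K} (h : (W₀⁄K).toAffine.Nonsingular x y) (hx : x ∈ A) : y ∈ A := by
  apply mem_of_sq_mem A
  rw [hW.eq_of_nonsingular h]
  exact A.add_mem _ _ (A.add_mem _ _ (pow_mem hx 3) (A.mul_mem _ _ ha₂ (pow_mem hx 2)))
    (A.mul_mem _ _ ha₄ hx)

/-- A point of type `0` moves by an element of `E₁` under inertia. -/
lemma InE1_smul_sub (hσ : σ ∈ A.inertiaSubgroupIn S) (hW : IsModel (W₀⁄K))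
    (hK : KernelProps A (W₀⁄K)) (hC : CongrProp A (W₀⁄K))
    (ha₂ : (W₀⁄K).a₂ ∈ A) (ha₄ : (W₀⁄K).a₄ ∈ A)
    {x y : K} (h : (W₀⁄K).toAffine.Nonsingular x y) (hx : 1 ≤ A.valuation x) :
    InE1 A (σ • (Affine.Point.some x y h : (W₀⁄K).toAffine.Point) - Affine.Point.some x y h) := by
  by_cases hxA : x ∈ A
  · have hx1 : A.valuation x = 1 := le_antisymm ((A.valuation_le_one_iff x).2 hxA) hx
    have hyA : y ∈ A := hW.y_mem A ha₂ ha₄ h hxA
    obtain ⟨h', e⟩ := algEquiv_smul_some σ h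
    rw [e]
    have h1 : x - σ x ∈ A.nonunits := by
      have := neg_mem (inertia_sub_mem_nonunits A hσ hxA)
      rwa [neg_sub] at this
    have h2 : y - σ y ∈ A.nonunits := by
      have := neg_mem (inertia_sub_mem_nonunits A hσ hyA)
      rwa [neg_sub] at this
    have := hK.neg (hC h h' hx1 h1 h2)
    rwa [neg_sub] at this
  · have h1 : InE1 A (Affine.Point.some x y h : (W₀⁄K).toAffine.Point) := hxA
    have h2 := InE1_smul A hσ h1
    rw [sub_eq_add_neg]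
    exact hK.add h2 (hK.neg h1)

/-- If the difference `σ • P - P` lies in `E₁` and `P` is `p`-torsion, then `σ • P = P`. -/
lemma smul_eq_of_InE1 (hK : KernelProps A (W₀⁄K)) (p : ℕ) (hp : A.valuation (p : K) = 1)
    {P : (W₀⁄K).toAffine.Point} (hP : p • P = 0) (hD : InE1 A (σ • P - P)) : σ • P = P := by
  have h0 : p • (σ • P - P) = 0 := by
    have h1 : σ • ((p : ℤ) • P) = (p : ℤ) • (σ • P) := algEquiv_smul_zsmul σ (p : ℤ) P
    rw [natCast_zsmul, natCast_zsmul, hP, smul_zero] at h1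
    rw [smul_sub, ← h1, hP, sub_zero]
  exact sub_eq_zero.1 (hK.torsion_free p hp hD h0)

lemma smul_T0 (hW : IsModel (W₀⁄K)) (h4 : (W₀⁄K).a₄ ≠ 0) :
    σ • (Affine.Point.some 0 0 (hW.nonsingular_zero h4) : (W₀⁄K).toAffine.Point) =
      Affine.Point.some 0 0 (hW.nonsingular_zero h4) := by
  obtain ⟨h', e⟩ := algEquiv_smul_some σ (hW.nonsingular_zero h4)
  rw [e]
  simp only [_root_.map_zero]

lemma baseChange_a₂_fixed (σ : K ≃ₐ[S] K) : σ (W₀⁄K).a₂ = (W₀⁄K).a₂ := by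
  have : (W₀⁄K).a₂ = algebraMap R K W₀.a₂ := by simp [WeierstrassCurve.baseChange]
  rw [this, algEquiv_algebraMap]

lemma baseChange_a₄_fixed (σ : K ≃ₐ[S] K) : σ (W₀⁄K).a₄ = (W₀⁄K).a₄ := by
  have : (W₀⁄K).a₄ = algebraMap R K W₀.a₄ := by simp [WeierstrassCurve.baseChange]
  rw [this, algEquiv_algebraMap]

/-- Points of type `h` (`v x ≤ v a₄`). -/
lemma smul_eq_typeH (hσ : σ ∈ A.inertiaSubgroupIn S) (hW : IsModel (W₀⁄K))
    (hK : KernelProps A (W₀⁄K)) (hC : CongrProp A (W₀⁄K))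
    (ha₂ : (W₀⁄K).a₂ ∈ A) (ha₄ : (W₀⁄K).a₄ ∈ A) (h4 : (W₀⁄K).a₄ ≠ 0)
    (p : ℕ) (hp : A.valuation (p : K) = 1)
    {x y : K} (h : (W₀⁄K).toAffine.Nonsingular x y) (hx0 : x ≠ 0)
    (hxh : A.valuation x ≤ A.valuation (W₀⁄K).a₄)
    (hP : p • (Affine.Point.some x y h : (W₀⁄K).toAffine.Point) = 0) :
    σ • (Affine.Point.some x y h : (W₀⁄K).toAffine.Point) = Affine.Point.some x y h := by
  obtain ⟨hQ, eQ⟩ := hW.add_T0 h4 h hx0
  have hvx : 0 < A.valuation x := lt_of_le_of_ne zero_le ((Valuation.ne_zero_iff _).2 hx0).symm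
  have hv : 1 ≤ A.valuation ((W₀⁄K).a₄ / x) := by
    rw [map_div₀]; exact (one_le_div₀ hvx).2 hxh
  have hD := InE1_smul_sub A hσ hW hK hC ha₂ ha₄ hQ hv
  apply smul_eq_of_InE1 A hK p hp hP
  rw [← eQ, smul_add, smul_T0 hW h4] at hD
  have e : σ • (Affine.Point.some x y h : (W₀⁄K).toAffine.Point) +
      Affine.Point.some 0 0 (hW.nonsingular_zero h4) -
      (Affine.Point.some x y h + Affine.Point.some 0 0 (hW.nonsingular_zero h4)) =
      σ • (Affine.Point.some x y h : (W₀⁄K).toAffine.Point) - Affine.Point.some x y h := by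
    abel
  rwa [e] at hD

/-- Points of type `±` (`v a₄ < v x < 1`). -/
lemma smul_eq_typePM (hσ : σ ∈ A.inertiaSubgroupIn S) (hW : IsModel (W₀⁄K))
    (hK : KernelProps A (W₀⁄K)) (hC : CongrProp A (W₀⁄K))
    (s : K) (hT : CompProp A (W₀⁄K) s)
    (hsq : ∀ m : K, ∃ μ : K, μ ^ 2 = m)
    (h2 : A.valuation (2 : K) = 1)
    (ha₂ : A.valuation (W₀⁄K).a₂ = 1)
    (ha₄ : (W₀⁄K).a₄ ∈ A) (h4 : (W₀⁄K).a₄ ≠ 0) (hΔ : (W₀⁄K).Δ ≠ 0)
    (p : ℕ) (hp : A.valuation (p : K) = 1) (hp0 : p ≠ 0)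
    (ρ : K) (hρ : σ ρ = ρ) (hρ0 : ρ ≠ 0)
    (hρv : A.valuation (W₀⁄K).a₄ = A.valuation ρ ^ p)
    {x y : K} (h : (W₀⁄K).toAffine.Nonsingular x y) (hx1 : A.valuation x < 1)
    (hxh : A.valuation (W₀⁄K).a₄ < A.valuation x)
    (hP : p • (Affine.Point.some x y h : (W₀⁄K).toAffine.Point) = 0) :
    σ • (Affine.Point.some x y h : (W₀⁄K).toAffine.Point) = Affine.Point.some x y h := by
  have hvx0 : A.valuation x ≠ 0 := fun h0 => by rw [h0] at hxh; exact not_lt_zero hxh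
  have hx0 : x ≠ 0 := (Valuation.ne_zero_iff _).1 hvx0
  have hvxpos : 0 < A.valuation x := lt_of_le_of_ne zero_le hvx0.symm
  have hva₄0 : A.valuation (W₀⁄K).a₄ ≠ 0 := (Valuation.ne_zero_iff _).2 h4
  have ha₂A : (W₀⁄K).a₂ ∈ A := (A.valuation_le_one_iff _).1 ha₂.le
  -- Step 1: `v x ^ p = v a₄ ^ (2 j')`
  obtain ⟨j, hj⟩ := hT.nsmul h4 (Affine.Point.some x y h) p
  rw [hP, comp_zero] at hj
  have hcomp : comp A (W₀⁄K) s (Affine.Point.some x y h) = A.valuation x ∨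
      comp A (W₀⁄K) s (Affine.Point.some x y h) = (A.valuation x)⁻¹ := by
    simp only [comp]
    rw [if_neg (not_le.2 hx1), if_neg (not_le.2 hxh)]
    split_ifs
    · exact Or.inl rfl
    · exact Or.inr rfl
  have hpow : ∃ j' : ℤ, A.valuation x ^ p = A.valuation (W₀⁄K).a₄ ^ (2 * j') := by
    rcases hcomp with hc | hc
    · rw [hc] at hj
      refine ⟨-j, ?_⟩
      rw [mul_neg, zpow_neg]
      exact eq_inv_of_mul_eq_one_left hj.symm
    · rw [hc, inv_pow] at hj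
      refine ⟨j, ?_⟩
      have h1 : A.valuation x ^ p ≠ 0 := pow_ne_zero _ hvx0
      have h2 := congrArg (fun t => A.valuation x ^ p * t) hj
      simp only [mul_one] at h2
      rw [h2, ← mul_assoc, mul_inv_cancel₀ h1, one_mul]
  obtain ⟨j', hj'⟩ := hpow
  -- Step 2: the rational abscissa `x₀`
  set x₀ : K := ρ ^ (2 * j') with hx₀def
  have hx₀0 : x₀ ≠ 0 := zpow_ne_zero _ hρ0
  have hvx₀ : A.valuation x₀ = A.valuation x := by
    have : A.valuation x ^ p = (A.valuation x₀) ^ p := by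
      rw [hj', hρv, hx₀def, map_zpow₀, ← zpow_natCast, ← zpow_natCast, ← zpow_mul, ← zpow_mul,
        mul_comm]
    exact ((pow_left_inj₀ zero_le zero_le hp0).1 this).symm
  have hσx₀ : σ x₀ = x₀ := by rw [hx₀def, map_zpow₀, hρ]
  set m : K := x₀ + (W₀⁄K).a₂ + (W₀⁄K).a₄ / x₀ with hm
  have hσm : σ m = m := by
    rw [hm, map_add, map_add, map_div₀, hσx₀, baseChange_a₂_fixed, baseChange_a₄_fixed]
  obtain ⟨μ₁, hμ₁⟩ := hsq m
  have hvx₀1 : A.valuation x₀ < 1 := hvx₀ ▸ hx1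
  have hva₄x : A.valuation ((W₀⁄K).a₄ / x) < 1 := by
    rw [map_div₀]; exact (div_lt_one₀ hvxpos).2 hxh
  have hva₄x₀ : A.valuation ((W₀⁄K).a₄ / x₀) < 1 := by
    rw [map_div₀, hvx₀]; exact (div_lt_one₀ hvxpos).2 hxh
  have hvm : A.valuation m = 1 := by
    have : m = (W₀⁄K).a₂ + (x₀ + (W₀⁄K).a₄ / x₀) := by rw [hm]; ring
    rw [this]
    exact val_eq_one_of_add A ha₂ (Valuation.map_add_lt _ hvx₀1 hva₄x₀)
  have hvμ₁ : A.valuation μ₁ = 1 := val_eq_one_of_sq A (by rw [hμ₁]; exact hvm)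
  set μP : K := y / x with hμP
  have hμPsq : μP ^ 2 = x + (W₀⁄K).a₂ + (W₀⁄K).a₄ / x := hW.mu_sq h hx0
  have hprod : A.valuation ((μP - μ₁) * (μP + μ₁)) < 1 := by
    have e : (μP - μ₁) * (μP + μ₁) = (x - x₀) + ((W₀⁄K).a₄ / x - (W₀⁄K).a₄ / x₀) := by
      have : (μP - μ₁) * (μP + μ₁) = μP ^ 2 - μ₁ ^ 2 := by ring
      rw [this, hμPsq, hμ₁, hm]; ring
    rw [e]
    exact Valuation.map_add_lt _ (Valuation.map_sub_lt _ hx1 hvx₀1)
      (Valuation.map_sub_lt _ hva₄x hva₄x₀)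
  obtain ⟨μ₀, hμ₀sq, hμ₀v, hμ₀c⟩ : ∃ μ₀ : K, μ₀ ^ 2 = m ∧ A.valuation μ₀ = 1 ∧
      A.valuation (μP - μ₀) < 1 := by
    rw [map_mul] at hprod
    by_cases hc : A.valuation (μP - μ₁) < 1
    · exact ⟨μ₁, hμ₁, hvμ₁, hc⟩
    · refine ⟨-μ₁, by rw [neg_sq, hμ₁], by rw [Valuation.map_neg]; exact hvμ₁, ?_⟩
      rw [sub_neg_eq_add]
      by_contra hc2
      push Not at hc hc2
      exact absurd hprod (not_lt.2 (one_le_mul_of_one_le_of_one_le hc hc2))
  have hv2μ₀ : A.valuation (2 * μ₀) = 1 := by rw [map_mul, h2, hμ₀v, one_mul]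
  -- Step 3: the inertia-fixed point `P₀`
  have heq₀ : (W₀⁄K).toAffine.Equation x₀ (μ₀ * x₀) := by
    rw [hW.equation_iff]
    have e := hμ₀sq
    rw [hm] at e
    field_simp at e
    linear_combination x₀ * e
  have h₀ : (W₀⁄K).toAffine.Nonsingular x₀ (μ₀ * x₀) :=
    (Affine.equation_iff_nonsingular_of_Δ_ne_zero hΔ).1 heq₀
  have hσμ₀ : σ μ₀ = μ₀ := by
    have hsq' : (σ μ₀) ^ 2 = μ₀ ^ 2 := by rw [← map_pow, hμ₀sq, hσm]
    have h0 : (σ μ₀ - μ₀) * (σ μ₀ + μ₀) = 0 := by linear_combination hsq'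
    rcases mul_eq_zero.1 h0 with h1 | h1
    · exact sub_eq_zero.1 h1
    · exfalso
      have hμ₀A : μ₀ ∈ A := (A.valuation_le_one_iff _).1 hμ₀v.le
      have hn := inertia_sub_mem_nonunits A hσ hμ₀A
      have e : σ μ₀ - μ₀ = -(2 * μ₀) := by linear_combination h1
      rw [e, ValuationSubring.mem_nonunits_iff, Valuation.map_neg, hv2μ₀] at hn
      exact lt_irrefl _ hn
  have hσP₀ : σ • (Affine.Point.some x₀ (μ₀ * x₀) h₀ : (W₀⁄K).toAffine.Point) =
      Affine.Point.some x₀ (μ₀ * x₀) h₀ := by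
    obtain ⟨h', e⟩ := algEquiv_smul_some σ h₀
    rw [e]
    simp only [Affine.Point.some.injEq]
    exact ⟨hσx₀, by rw [map_mul, hσμ₀, hσx₀]⟩
  have hvsum : A.valuation (μ₀ + μP) = 1 := by
    have e : μ₀ + μP = 2 * μ₀ + (μP - μ₀) := by ring
    rw [e]; exact val_eq_one_of_add A hv2μ₀ hμ₀c
  have hy : y = μP * x := by rw [hμP]; field_simp
  -- Step 4: `P - P₀` has type `0`
  by_cases hxx : x = x₀
  · have hμ : μP = μ₀ := by
      have hsq' : μP ^ 2 = μ₀ ^ 2 := by rw [hμPsq, hμ₀sq, hm, hxx]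
      have h0 : (μP - μ₀) * (μ₀ + μP) = 0 := by linear_combination hsq'
      rcases mul_eq_zero.1 h0 with h1 | h1
      · exact sub_eq_zero.1 h1
      · rw [h1, Valuation.map_zero] at hvsum
        exact absurd hvsum zero_ne_one
    have e : (Affine.Point.some x y h : (W₀⁄K).toAffine.Point) =
        Affine.Point.some x₀ (μ₀ * x₀) h₀ := by
      simp only [Affine.Point.some.injEq]
      exact ⟨hxx, by rw [hy, hμ, hxx]⟩
    rw [e]; exact hσP₀
  · obtain ⟨hn₀, en₀⟩ := hW.neg_some h₀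
    obtain ⟨hR, eR⟩ := hW.add_eq_I h hn₀ hx0 hx₀0 hxx
    have hvR : 1 ≤ A.valuation (sumX x x₀ (betaI x y x₀ (-(μ₀ * x₀)))) := by
      have hd : x - x₀ ≠ 0 := sub_ne_zero.2 hxx
      have e : sumX x x₀ (betaI x y x₀ (-(μ₀ * x₀))) =
          (x * x₀) * (μ₀ + μP) ^ 2 / (x - x₀) ^ 2 := by
        rw [sumX, betaI, hy]
        field_simp
        ring
      have hvd : A.valuation (x - x₀) ≤ A.valuation x :=
        Valuation.map_sub_le _ le_rfl hvx₀.le
      have hvd0 : 0 < A.valuation (x - x₀) :=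
        lt_of_le_of_ne zero_le ((Valuation.ne_zero_iff _).2 hd).symm
      rw [e, map_div₀, map_mul, map_mul, map_pow, map_pow, hvsum, hvx₀, one_pow, mul_one,
        one_le_div₀ (pow_pos hvd0 2), ← sq]
      exact pow_le_pow_left₀ zero_le hvd 2
    have hD := InE1_smul_sub A hσ hW hK hC ha₂A ha₄ hR hvR
    apply smul_eq_of_InE1 A hK p hp hP
    rw [← eR, ← en₀, smul_add, smul_neg, hσP₀] at hD
    have e : σ • (Affine.Point.some x y h : (W₀⁄K).toAffine.Point) +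
        -Affine.Point.some x₀ (μ₀ * x₀) h₀ -
        (Affine.Point.some x y h + -Affine.Point.some x₀ (μ₀ * x₀) h₀) =
        σ • (Affine.Point.some x y h : (W₀⁄K).toAffine.Point) - Affine.Point.some x y h := by
      abel
    rwa [e] at hD

/-- **Model theorem.** Inertia acts trivially on the `p`-torsion of the model curve
`Y² = X³ + a₂X² + a₄X` when `a₂² - 4a₄` is a unit, `p` is a unit and `v a₄` is a `p`-th power
of the valuation of an inertia-fixed element. -/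
theorem model_inertia_trivial (hσ : σ ∈ A.inertiaSubgroupIn S) (hW : IsModel (W₀⁄K))
    (hK : KernelProps A (W₀⁄K)) (hC : CongrProp A (W₀⁄K))
    (hT : ∀ s : K, (W₀⁄K).a₂ = s ^ 2 → A.valuation s = 1 → A.valuation (W₀⁄K).a₄ < 1 →
      CompProp A (W₀⁄K) s)
    (hsq : ∀ m : K, ∃ μ : K, μ ^ 2 = m)
    (h2 : A.valuation (2 : K) = 1)
    (ha₂ : (W₀⁄K).a₂ ∈ A) (hd : A.valuation ((W₀⁄K).a₂ ^ 2 - 4 * (W₀⁄K).a₄) = 1)
    (p : ℕ) (hp : A.valuation (p : K) = 1)
    (ρ : K) (hρ : σ ρ = ρ) (hρA : ρ ∈ A) (hρ0 : ρ ≠ 0)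
    (hρv : A.valuation (W₀⁄K).a₄ = A.valuation ρ ^ p)
    (P : (W₀⁄K).toAffine.Point) (hP : p • P = 0) : σ • P = P := by
  have hp0 : p ≠ 0 := by
    rintro rfl
    rw [Nat.cast_zero, Valuation.map_zero] at hp
    exact zero_ne_one hp
  have hvρ0 : A.valuation ρ ≠ 0 := (Valuation.ne_zero_iff _).2 hρ0
  have h4 : (W₀⁄K).a₄ ≠ 0 := by
    rw [← Valuation.ne_zero_iff A.valuation, hρv]; exact pow_ne_zero _ hvρ0
  have ha₄ : (W₀⁄K).a₄ ∈ A := by
    rw [← A.valuation_le_one_iff, hρv]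
    exact pow_le_one₀ zero_le ((A.valuation_le_one_iff _).2 hρA)
  have h20 : (2 : K) ≠ 0 := by
    rw [← Valuation.ne_zero_iff A.valuation, h2]; exact one_ne_zero
  have hd0 : (W₀⁄K).a₂ ^ 2 - 4 * (W₀⁄K).a₄ ≠ 0 := by
    rw [← Valuation.ne_zero_iff A.valuation, hd]; exact one_ne_zero
  have hΔ : (W₀⁄K).Δ ≠ 0 := by
    rw [hW.Δ_eq]
    have : (16 : K) = 2 ^ 4 := by norm_num
    rw [this]
    exact mul_ne_zero (mul_ne_zero (pow_ne_zero _ h20) (pow_ne_zero _ h4)) hd0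
  rcases P with _ | ⟨x, y, h⟩
  · rfl
  by_cases hx1 : 1 ≤ A.valuation x
  · exact smul_eq_of_InE1 A hK p hp hP (InE1_smul_sub A hσ hW hK hC ha₂ ha₄ h hx1)
  push Not at hx1
  by_cases hxh : A.valuation x ≤ A.valuation (W₀⁄K).a₄
  · by_cases hx0 : x = 0
    · subst hx0
      have hy : y = 0 := by
        have e := hW.eq_of_nonsingular h
        have : y ^ 2 = 0 := by rw [e]; ring
        exact pow_eq_zero_iff (by norm_num) |>.1 this
      subst hy
      exact smul_T0 hW h4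
    · exact smul_eq_typeH A hσ hW hK hC ha₂ ha₄ h4 p hp h hx0 hxh hP
  push Not at hxh
  have hv4 : A.valuation (W₀⁄K).a₄ < 1 := lt_trans hxh hx1
  have hva₂ : A.valuation (W₀⁄K).a₂ = 1 := by
    apply val_eq_one_of_sq A
    have e : (W₀⁄K).a₂ ^ 2 = ((W₀⁄K).a₂ ^ 2 - 4 * (W₀⁄K).a₄) + 4 * (W₀⁄K).a₄ := by ring
    rw [e]
    apply val_eq_one_of_add A hd
    have h4' : A.valuation (4 : K) = 1 := by
      have : (4 : K) = 2 * 2 := by norm_num
      rw [this, map_mul, h2, one_mul]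
    rw [map_mul, h4', one_mul]; exact hv4
  obtain ⟨s, hs⟩ := hsq (W₀⁄K).a₂
  have hs1 : A.valuation s = 1 := val_eq_one_of_sq A (by rw [hs]; exact hva₂)
  exact smul_eq_typePM A hσ hW hK hC s (hT s hs.symm hs1 hv4) hsq h2 hva₂ ha₄ h4 hΔ p hp hp0
    ρ hρ hρ0 hρv h hx1 hxh hP

end Main

end Fermat.Agent.S05
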